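/-
S55 / 22-LOC-INV, part 22b (helper28): the Frobenius characters of a local field.

`K` finite over `ℚ_[q]` inside `Ω = PadicAlgCl q`, `Q = resCard q K`, `G_K = K.fixingSubgroup`.
For `n : ℕ+`, `chi K n : G_K →* ℤ/n` sends `s` to the unique `i` with `s z = z ^ (Q ^ i)` on
`μ_{Q^n - 1}` (i.e. `s = Frob^i` on the unramified extension `K_n = unr q K n`).
Exports: `chi_spec`, `chi_eq_of_pow` (uniqueness), `chi_compat` (levels), `chi_frob`,
`chiVal_eq_zero_iff` / `mem_fixingSubgroup_unr_iff` (kernel `= G_{K_n}`), `chi_baseChange`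
(`χ_{K,n}|_{G_L} = f · χ_{L,n}`).
Mathlib + UnrExt93 (helper93) + GlobalInv91.Carry (for `chiVal`).
-/
import Mathlib
import Fermat.Agent.S55.UnrExt93.BaseChange
import Fermat.Agent.S55.GlobalInv91.Carry

set_option autoImplicit false
set_option linter.unusedSectionVars false

namespace Fermat.Agent.S55.LocInv28.FrobChar

open Fermat.Agent.S55.UnrExt93 Fermat.Agent.S55.GlobalInv91 IntermediateField

variable {q : ℕ} [Fact q.Prime]

section Roots

variable (K : IntermediateField ℚ_[q] (PadicAlgCl q)) [FiniteDimensional ℚ_[q] K]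

lemma one_le_resCard_pow (e : ℕ) : 1 ≤ resCard q K ^ e :=
  Nat.one_le_pow _ _ (by have := one_lt_resCard K; omega)

/-- `Q^(n k)` acts trivially on `μ_{Q^n - 1}`. -/
lemma pow_resCard_pow_mul {n : ℕ} {z : PadicAlgCl q} (hz : z ^ (resCard q K ^ n - 1) = 1)
    (k : ℕ) : z ^ resCard q K ^ (n * k) = z := by
  obtain ⟨e, he⟩ := Nat.pow_sub_one_dvd_pow_sub_one (resCard q K) (dvd_mul_right n k)
  have h1 : resCard q K ^ (n * k) = (resCard q K ^ n - 1) * e + 1 := by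
    have := one_le_resCard_pow K (n * k)
    omega
  rw [h1, pow_succ, pow_mul, hz, one_pow, one_mul]

/-- exponents of `Q` only matter mod `n` on `μ_{Q^n - 1}`. -/
lemma pow_resCard_pow_mod {n : ℕ} {z : PadicAlgCl q} (hz : z ^ (resCard q K ^ n - 1) = 1)
    (j : ℕ) : z ^ resCard q K ^ j = z ^ resCard q K ^ (j % n) := by
  conv_lhs => rw [← Nat.div_add_mod j n, pow_add, pow_mul, pow_resCard_pow_mul K hz]

/-- `μ_{Q^n - 1} ⊆ μ_{Q^m - 1}` for `n ∣ m`. -/
lemma root_of_dvd {n m : ℕ} (hnm : n ∣ m) {z : PadicAlgCl q}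
    (hz : z ^ (resCard q K ^ n - 1) = 1) : z ^ (resCard q K ^ m - 1) = 1 := by
  obtain ⟨e, he⟩ := Nat.pow_sub_one_dvd_pow_sub_one (resCard q K) hnm
  rw [he, pow_mul, hz, one_pow]

/-- every `s ∈ G_K` acts on `μ_{Q^n - 1}` as a power of Frobenius. -/
theorem exists_lt_pow {n : ℕ} (hn : 0 < n) (s : PadicAlgCl q ≃ₐ[ℚ_[q]] PadicAlgCl q)
    (hs : s ∈ K.fixingSubgroup) :
    ∃ i < n, ∀ z : PadicAlgCl q, z ^ (resCard q K ^ n - 1) = 1 → s z = z ^ resCard q K ^ i := by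
  obtain ⟨ζ, hζ⟩ := exists_zeta K hn
  obtain ⟨i, hi, h⟩ := galois_action hn hζ s hs
  refine ⟨i, hi, fun z hz => ?_⟩
  have : NeZero (resCard q K ^ n - 1) := ⟨resCard_pow_sub_one_ne_zero K hn⟩
  obtain ⟨k, -, rfl⟩ := hζ.eq_pow_of_pow_eq_one hz
  rw [map_pow, h, ← pow_mul, ← pow_mul, mul_comm]

/-- uniqueness of the exponent. -/
theorem eq_of_pow_eq {n : ℕ} (hn : 0 < n) {i j : ℕ} (hi : i < n) (hj : j < n)
    (h : ∀ z : PadicAlgCl q, z ^ (resCard q K ^ n - 1) = 1 →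
      z ^ resCard q K ^ i = z ^ resCard q K ^ j) : i = j := by
  obtain ⟨ζ, hζ⟩ := exists_zeta K hn
  exact zeta_pow_inj hζ hi hj (h ζ hζ.pow_eq_one)

end Roots

section Chi

variable (K : IntermediateField ℚ_[q] (PadicAlgCl q)) [FiniteDimensional ℚ_[q] K]

/-- the exponent of Frobenius by which `s` acts on `K_n`, as a natural number `< n`. -/
noncomputable def chiNat (n : ℕ+) (s : K.fixingSubgroup) : ℕ :=
  (exists_lt_pow K n.pos s.1 s.2).choose

lemma chiNat_lt (n : ℕ+) (s : K.fixingSubgroup) : chiNat K n s < n :=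
  (exists_lt_pow K n.pos s.1 s.2).choose_spec.1

lemma chiNat_spec (n : ℕ+) (s : K.fixingSubgroup) {z : PadicAlgCl q}
    (hz : z ^ (resCard q K ^ (n : ℕ) - 1) = 1) :
    (s : PadicAlgCl q ≃ₐ[ℚ_[q]] PadicAlgCl q) z = z ^ resCard q K ^ chiNat K n s :=
  (exists_lt_pow K n.pos s.1 s.2).choose_spec.2 z hz

/-- uniqueness: if `s` acts as `z ↦ z^(Q^j)` on `μ_{Q^n - 1}` then `chiNat = j mod n`. -/
lemma chiNat_eq_of_pow (n : ℕ+) (s : K.fixingSubgroup) (j : ℕ)
    (h : ∀ z : PadicAlgCl q, z ^ (resCard q K ^ (n : ℕ) - 1) = 1 →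
      (s : PadicAlgCl q ≃ₐ[ℚ_[q]] PadicAlgCl q) z = z ^ resCard q K ^ j) :
    chiNat K n s = j % n := by
  refine eq_of_pow_eq K n.pos (chiNat_lt K n s) (Nat.mod_lt _ n.pos) fun z hz => ?_
  rw [← chiNat_spec K n s hz, h z hz, pow_resCard_pow_mod K hz]

/-- **the Frobenius character** `χ_{K,n} : G_K →* ℤ/n`. -/
noncomputable def chi (n : ℕ+) : K.fixingSubgroup →* Multiplicative (ZMod n) where
  toFun s := Multiplicative.ofAdd ((chiNat K n s : ℕ) : ZMod n)
  map_one' := by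
    have h := chiNat_eq_of_pow K n 1 0 (fun z _ => by simp)
    rw [h, Nat.zero_mod]
    simp
  map_mul' s t := by
    have h := chiNat_eq_of_pow K n (s * t) (chiNat K n s + chiNat K n t) (fun z hz => by
      have h1 : ((s * t : K.fixingSubgroup) : PadicAlgCl q ≃ₐ[ℚ_[q]] PadicAlgCl q) z =
          (s : PadicAlgCl q ≃ₐ[ℚ_[q]] PadicAlgCl q)
            ((t : PadicAlgCl q ≃ₐ[ℚ_[q]] PadicAlgCl q) z) := rfl
      rw [h1, chiNat_spec K n t hz, map_pow, chiNat_spec K n s hz, ← pow_mul, ← pow_add])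
    rw [h, ← ofAdd_add, ZMod.natCast_mod]
    push_cast
    rfl

lemma chiVal_chi (n : ℕ+) (s : K.fixingSubgroup) :
    chiVal (chi K n) s = ((chiNat K n s : ℕ) : ZMod n) := rfl

lemma val_chiVal_chi (n : ℕ+) (s : K.fixingSubgroup) :
    (chiVal (chi K n) s).val = chiNat K n s := by
  rw [chiVal_chi, ZMod.val_natCast_of_lt (chiNat_lt K n s)]

/-- the defining property of `χ_{K,n}`. -/
theorem chi_spec (n : ℕ+) (s : K.fixingSubgroup) {z : PadicAlgCl q}
    (hz : z ^ (resCard q K ^ (n : ℕ) - 1) = 1) :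
    (s : PadicAlgCl q ≃ₐ[ℚ_[q]] PadicAlgCl q) z =
      z ^ resCard q K ^ (chiVal (chi K n) s).val := by
  rw [val_chiVal_chi]
  exact chiNat_spec K n s hz

/-- uniqueness: if `s` acts as `z ↦ z^(Q^j)` on `μ_{Q^n - 1}` then `χ_{K,n} s = j`. -/
theorem chi_eq_of_pow (n : ℕ+) (s : K.fixingSubgroup) (j : ℕ)
    (h : ∀ z : PadicAlgCl q, z ^ (resCard q K ^ (n : ℕ) - 1) = 1 →
      (s : PadicAlgCl q ≃ₐ[ℚ_[q]] PadicAlgCl q) z = z ^ resCard q K ^ j) :
    chiVal (chi K n) s = (j : ZMod n) := by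
  rw [chiVal_chi, chiNat_eq_of_pow K n s j h, ZMod.natCast_mod]

/-- compatibility of the levels. -/
theorem chi_compat (n m : ℕ+) (s : K.fixingSubgroup) (hnm : (n : ℕ) ∣ m) :
    (chiVal (chi K n) s).val = (chiVal (chi K m) s).val % n := by
  rw [chi_eq_of_pow K n s (chiVal (chi K m) s).val
    (fun z hz => chi_spec K m s (root_of_dvd K hnm hz)), ZMod.val_natCast]

/-- a Frobenius element has `χ = 1`. -/
theorem chi_frob (n : ℕ+) (s : K.fixingSubgroup)
    (h : ∀ z : PadicAlgCl q, z ^ (resCard q K ^ (n : ℕ) - 1) = 1 →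
      (s : PadicAlgCl q ≃ₐ[ℚ_[q]] PadicAlgCl q) z = z ^ resCard q K) :
    chiVal (chi K n) s = 1 := by
  rw [chi_eq_of_pow K n s 1 (fun z hz => by rw [pow_one]; exact h z hz), Nat.cast_one]

/-- there is a Frobenius element in `G_K`. -/
theorem exists_frobElt (n : ℕ+) : ∃ s : K.fixingSubgroup, chiVal (chi K n) s = 1 ∧
    ∀ z : PadicAlgCl q, z ^ (resCard q K ^ (n : ℕ) - 1) = 1 →
      (s : PadicAlgCl q ≃ₐ[ℚ_[q]] PadicAlgCl q) z = z ^ resCard q K := by
  obtain ⟨φ, hφK, hφ, -⟩ := exists_frob (K := K) n.pos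
  exact ⟨⟨φ, hφK⟩, chi_frob K n ⟨φ, hφK⟩ hφ, hφ⟩

/-- the kernel of `χ_{K,n}`: the elements acting trivially on `μ_{Q^n - 1}`. -/
theorem chiVal_eq_zero_iff (n : ℕ+) (s : K.fixingSubgroup) :
    chiVal (chi K n) s = 0 ↔ ∀ z : PadicAlgCl q, z ^ (resCard q K ^ (n : ℕ) - 1) = 1 →
      (s : PadicAlgCl q ≃ₐ[ℚ_[q]] PadicAlgCl q) z = z := by
  constructor
  · intro h z hz
    have := chi_spec K n s hz
    rwa [h, ZMod.val_zero, pow_zero, pow_one] at this
  · intro h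
    rw [chi_eq_of_pow K n s 0 (fun z hz => by rw [pow_zero, pow_one]; exact h z hz), Nat.cast_zero]

theorem chi_eq_one_iff (n : ℕ+) (s : K.fixingSubgroup) :
    chi K n s = 1 ↔ ∀ z : PadicAlgCl q, z ^ (resCard q K ^ (n : ℕ) - 1) = 1 →
      (s : PadicAlgCl q ≃ₐ[ℚ_[q]] PadicAlgCl q) z = z := by
  rw [← chiVal_eq_zero_iff]
  exact Iff.rfl

omit [FiniteDimensional ℚ_[q] K] in
/-- `G_{K_n}` = elements of `G_K` acting trivially on `μ_{Q^n - 1}`. -/
theorem mem_fixingSubgroup_unr_iff (n : ℕ) (s : PadicAlgCl q ≃ₐ[ℚ_[q]] PadicAlgCl q) :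
    s ∈ (unr q K n).fixingSubgroup ↔ s ∈ K.fixingSubgroup ∧
      ∀ z : PadicAlgCl q, z ^ (resCard q K ^ n - 1) = 1 → s z = z := by
  constructor
  · intro h
    refine ⟨IntermediateField.fixingSubgroup_antitone (le_unr K n) h, fun z hz => ?_⟩
    exact (IntermediateField.mem_fixingSubgroup_iff _ _).1 h z (mem_unr_of_pow_eq_one K n hz)
  · rintro ⟨hK, hz⟩
    rw [IntermediateField.mem_fixingSubgroup_iff]
    have hle : unr q K n ≤ IntermediateField.fixedField (Subgroup.zpowers s) := by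
      refine sup_le ?_ ?_
      · intro y hy
        rw [IntermediateField.mem_fixedField_iff]
        rintro t ⟨k, rfl⟩
        have h1 : s y = y := (IntermediateField.mem_fixingSubgroup_iff _ _).1 hK y hy
        have h2 : s ∈ MulAction.stabilizer (PadicAlgCl q ≃ₐ[ℚ_[q]] PadicAlgCl q) y := h1
        exact (zpow_mem h2 k : _)
      · rw [IntermediateField.adjoin_le_iff]
        intro y hy
        rw [SetLike.mem_coe, IntermediateField.mem_fixedField_iff]
        rintro t ⟨k, rfl⟩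
        have h1 : s y = y := hz y hy
        have h2 : s ∈ MulAction.stabilizer (PadicAlgCl q ≃ₐ[ℚ_[q]] PadicAlgCl q) y := h1
        exact (zpow_mem h2 k : _)
    intro y hy
    exact (IntermediateField.mem_fixedField_iff _ _).1 (hle hy) s (Subgroup.mem_zpowers s)

/-- the kernel of `χ_{K,n}` is `G_{K_n}`. -/
theorem chi_eq_one_iff_mem (n : ℕ+) (s : K.fixingSubgroup) :
    chi K n s = 1 ↔ (s : PadicAlgCl q ≃ₐ[ℚ_[q]] PadicAlgCl q) ∈ (unr q K n).fixingSubgroup := by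
  rw [chi_eq_one_iff, mem_fixingSubgroup_unr_iff]
  exact ⟨fun h => ⟨s.2, h⟩, fun h => h.2⟩

end Chi

section BaseChange

variable {K L : IntermediateField ℚ_[q] (PadicAlgCl q)} [FiniteDimensional ℚ_[q] K]
  [FiniteDimensional ℚ_[q] L]

/-- (R1) **base change**: for `K ≤ L` with `resCard L = resCard K ^ f`,
`χ_{K,n}|_{G_L} = f · χ_{L,n}`. -/
theorem chi_baseChange (h : K ≤ L) {f : ℕ} (hf : resCard q L = resCard q K ^ f) (n : ℕ+)
    (t : L.fixingSubgroup) :
    chiVal (chi K n) ⟨(t : PadicAlgCl q ≃ₐ[ℚ_[q]] PadicAlgCl q),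
      IntermediateField.fixingSubgroup_antitone h t.2⟩ =
      (f : ZMod n) * chiVal (chi L n) t := by
  rw [chi_eq_of_pow K n _ (f * (chiVal (chi L n) t).val) (fun z hz => ?_)]
  · push_cast
    rw [ZMod.natCast_zmod_val]
  · have hzL : z ^ (resCard q L ^ (n : ℕ) - 1) = 1 := by
      rw [hf, ← pow_mul]
      exact root_of_dvd K (dvd_mul_left (n : ℕ) f) hz
    have := chi_spec L n t hzL
    rw [hf, ← pow_mul] at this
    exact this

end BaseChange

end Fermat.Agent.S55.LocInv28.FrobChar
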