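/-
S55 / 22-LOC-INV, part 22b (helper28): the local invariant map, abstract form.

`G` a group with a level structure `𝒰` (helper15's `Profin15.LevelStr`), `A : Rep ℤ G`.
An *invariant datum* is a compatible family of characters `χ_n : G → ℤ/n` (the Frobenius
characters of the unramified layers) and a "valuation" `v : A^G → ℤ`.  The classes
`cls n a := [carry χ_n a] ∈ 𝒰.H2 A` (helper91's carry cocycle `δχ_n ∪ a`) are the unramified classes.
If every class is unramified (`pres`) and `cls n a = 0 ↔ n ∣ v a` (`ker`, the norm criterion),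
then there is a unique additive `inv : 𝒰.H2 A →+ ℚ/ℤ` with `inv (cls n a) = v a / n`; it is
injective, and surjective when `v` is.  Restriction multiplies `inv` by `e * f`.
Pure algebra: Mathlib + Profin15 + GlobalInv91.Carry.
-/
import Mathlib
import Fermat.Agent.S55.Profin15.Cohomology
import Fermat.Agent.S55.Profin15.Restriction
import Fermat.Agent.S55.GlobalInv91.Carry

set_option autoImplicit false
set_option linter.unusedSectionVars false

open CategoryTheory groupCohomology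

namespace Fermat.Agent.S55.LocInv28.Abstract

open Fermat.Agent.S55.Profin15 Fermat.Agent.S55.GlobalInv91

/-! ## Fractions in `ℚ/ℤ` -/

section Frac

/-- the class of `k / n` in `ℚ/ℤ`. -/
noncomputable def frac (k : ℤ) (n : ℕ+) : AddCircle (1 : ℚ) :=
  (((k : ℚ) / ((n : ℕ) : ℚ) : ℚ) : AddCircle (1 : ℚ))

lemma natCast_pnat_ne_zero (n : ℕ+) : (((n : ℕ) : ℚ)) ≠ 0 :=
  Nat.cast_ne_zero.2 n.ne_zero

lemma frac_add (k k' : ℤ) (n : ℕ+) : frac (k + k') n = frac k n + frac k' n := by
  unfold frac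
  rw [← AddCircle.coe_add, Int.cast_add, add_div]

lemma frac_zero (n : ℕ+) : frac 0 n = 0 := by
  unfold frac
  simp

lemma frac_eq_zero_iff (k : ℤ) (n : ℕ+) : frac k n = 0 ↔ ((n : ℕ) : ℤ) ∣ k := by
  unfold frac
  rw [AddCircle.coe_eq_zero_iff]
  have hn := natCast_pnat_ne_zero n
  constructor
  · rintro ⟨z, hz⟩
    refine ⟨z, ?_⟩
    rw [zsmul_eq_mul, mul_one, eq_div_iff hn] at hz
    have : ((z * ((n : ℕ) : ℤ) : ℤ) : ℚ) = (k : ℚ) := by push_cast; exact hz
    have := Int.cast_injective this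
    rw [← this, mul_comm]
  · rintro ⟨z, rfl⟩
    refine ⟨z, ?_⟩
    rw [zsmul_eq_mul, mul_one, eq_div_iff hn]
    push_cast
    ring

lemma frac_mul_mul (k : ℤ) (n m : ℕ+) : frac (((m : ℕ) : ℤ) * k) (m * n) = frac k n := by
  unfold frac
  congr 1
  have hn := natCast_pnat_ne_zero n
  have hm := natCast_pnat_ne_zero m
  rw [PNat.mul_coe]
  push_cast
  field_simp

lemma frac_mul_mul' (k : ℤ) (n m : ℕ+) : frac (((m : ℕ) : ℤ) * k) (n * m) = frac k n := by
  rw [mul_comm n m, frac_mul_mul]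

lemma frac_sub (k k' : ℤ) (n : ℕ+) : frac (k - k') n = frac k n - frac k' n := by
  unfold frac
  rw [← AddCircle.coe_sub, Int.cast_sub, sub_div]

lemma frac_smul (c : ℕ) (k : ℤ) (n : ℕ+) : frac ((c : ℤ) * k) n = c • frac k n := by
  induction c with
  | zero => simp [frac_zero]
  | succ c ih =>
    rw [succ_nsmul, ← ih, ← frac_add]
    congr 1
    push_cast
    ring

/-- every element of `ℚ/ℤ` is a fraction. -/
lemma exists_frac (x : AddCircle (1 : ℚ)) : ∃ (k : ℤ) (n : ℕ+), x = frac k n := by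
  obtain ⟨r, rfl⟩ := QuotientAddGroup.mk_surjective x
  refine ⟨r.num, ⟨r.den, r.den_pos⟩, ?_⟩
  unfold frac
  congr 1
  exact (Rat.num_div_den r).symm

end Frac

variable {G : Type} [Group G] (𝒰 : LevelStr G) (A : Rep.{0, 0, 0} ℤ G)

/-! ## Level-constancy of the carry cocycle, explicit primitives -/

section Carry

variable {n : ℕ} [NeZero n]

lemma isConst₂_carry (χ : G →* Multiplicative (ZMod n))
    (hχ : ∃ U ∈ 𝒰.levels, ∀ s ∈ U, χ s = 1) (a : A) : 𝒰.IsConst₂ (carry A χ a) := by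
  obtain ⟨U, hU, h⟩ := hχ
  refine ⟨U, hU, fun g g' s s' hs hs' => ?_⟩
  have e1 : χ (g * s) = χ g := by rw [map_mul, h s hs, mul_one]
  have e2 : χ (g' * s') = χ g' := by rw [map_mul, h s' hs', mul_one]
  show carryNat n (Multiplicative.toAdd (χ (g * s))) (Multiplicative.toAdd (χ (g' * s'))) • a =
    carryNat n (Multiplicative.toAdd (χ g)) (Multiplicative.toAdd (χ g')) • a
  rw [e1, e2]

lemma isConst₁_of_char {X : Type*} (χ : G →* Multiplicative (ZMod n))
    (hχ : ∃ U ∈ 𝒰.levels, ∀ s ∈ U, χ s = 1) (F : ZMod n → X) :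
    𝒰.IsConst₁ (fun g => F (chiVal χ g)) := by
  obtain ⟨U, hU, h⟩ := hχ
  refine ⟨U, hU, fun g s hs => ?_⟩
  have e1 : χ (g * s) = χ g := by rw [map_mul, h s hs, mul_one]
  show F (Multiplicative.toAdd (χ (g * s))) = F (Multiplicative.toAdd (χ g))
  rw [e1]

/-- change of level with an explicit primitive: for `n ∣ m`, `χt` of level `m` lifting `χ` of
level `n`, `carry χt ((m / n) • a) - carry χ a = d (g ↦ ((χt g).val / n) • a)`. -/
theorem d_lift_primitive {m : ℕ} [NeZero m] (hnm : n ∣ m)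
    (χ : G →* Multiplicative (ZMod n)) (χt : G →* Multiplicative (ZMod m))
    (h : ∀ g : G, (chiVal χ g).val = (chiVal χt g).val % n) (a : A)
    (ha : ∀ g : G, A.ρ g a = a) :
    (d₁₂ A).hom (fun g => ((chiVal χt g).val / n) • a) =
      carry A χt ((m / n) • a) - carry A χ a := by
  obtain ⟨n', rfl⟩ := hnm
  have hn : 0 < n := Nat.pos_of_ne_zero (NeZero.ne n)
  rw [Nat.mul_div_cancel_left _ hn]
  funext ⟨g, hh⟩
  rw [d₁₂_hom_apply]
  simp only [Pi.sub_apply, carry_apply, map_nsmul, ha, chiVal_mul]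
  set i := (chiVal χt g).val with hi
  set j := (chiVal χt hh).val with hj
  have hr : (chiVal χt g + chiVal χt hh).val = (i + j) % (n * n') := ZMod.val_add _ _
  have hc' : carryNat (n * n') (chiVal χt g) (chiVal χt hh) = (i + j) / (n * n') := rfl
  have hc : carryNat n (chiVal χ g) (chiVal χ hh) = (i % n + j % n) / n := by
    unfold carryNat; rw [h g, h hh]
  rw [hr, hc', hc]
  have E : j / n + i / n + (i % n + j % n) / n =
      (i + j) % (n * n') / n + n' * ((i + j) / (n * n')) := by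
    have h1 : (i + j) / n = i / n + j / n + (i % n + j % n) / n := by
      rw [Nat.add_div hn]
      split_ifs with hif
      · have : (i % n + j % n) / n = 1 := by
          have h1 := Nat.mod_lt i hn
          have h2 := Nat.mod_lt j hn
          apply Nat.div_eq_of_lt_le <;> omega
        rw [this]
      · have : (i % n + j % n) / n = 0 := Nat.div_eq_of_lt (by omega)
        rw [this]
    have h2 : i + j = (i + j) % (n * n') + n * (n' * ((i + j) / (n * n'))) := by
      rw [← mul_assoc]; exact (Nat.mod_add_div _ _).symm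
    have h3 : (i + j) / n = (i + j) % (n * n') / n + n' * ((i + j) / (n * n')) := by
      conv_lhs => rw [h2]
      rw [Nat.add_mul_div_left _ _ hn]
    omega
  have E' := congrArg (fun m : ℕ => m • a) E
  simp only [add_smul, mul_smul] at E'
  rw [smul_comm ((i + j) / (n * n')) n' a]
  rw [sub_add_eq_add_sub, sub_eq_sub_iff_add_eq_add]
  rw [E']
  abel

/-- multiplication of the character with an explicit primitive: if `ψ = c · χ` then
`c • carry χ a - carry ψ a = d (g ↦ ((c * (χ g).val) / n) • a)`. -/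
theorem d_mul_primitive (c : ℕ)
    (χ ψ : G →* Multiplicative (ZMod n))
    (h : ∀ g : G, chiVal ψ g = (c : ZMod n) * chiVal χ g) (a : A)
    (ha : ∀ g : G, A.ρ g a = a) :
    (d₁₂ A).hom (fun g => ((c * (chiVal χ g).val) / n) • a) =
      c • carry A χ a - carry A ψ a := by
  have hn : 0 < n := Nat.pos_of_ne_zero (NeZero.ne n)
  funext ⟨g, hh⟩
  rw [d₁₂_hom_apply]
  simp only [Pi.sub_apply, Pi.smul_apply, carry_apply, map_nsmul, ha, chiVal_mul]
  set i := (chiVal χ g).val with hi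
  set j := (chiVal χ hh).val with hj
  have hval : ∀ x : ZMod n, ((c : ZMod n) * x).val = (c * x.val) % n := by
    intro x
    rw [ZMod.val_mul, ZMod.val_natCast, Nat.mod_mul_mod]
  have hr : (chiVal χ g + chiVal χ hh).val = (i + j) % n := ZMod.val_add _ _
  have hcψ : carryNat n (chiVal ψ g) (chiVal ψ hh) = ((c * i) % n + (c * j) % n) / n := by
    unfold carryNat; rw [h g, h hh, hval, hval]
  have hcχ : carryNat n (chiVal χ g) (chiVal χ hh) = (i + j) / n := rfl
  rw [hr, hcψ, hcχ]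
  have E : ((c * i) % n + (c * j) % n) / n + (c * i) / n + (c * j) / n =
      (c * ((i + j) % n)) / n + c * ((i + j) / n) := by
    have h1 : (c * i + c * j) / n = (c * i) / n + (c * j) / n +
        ((c * i) % n + (c * j) % n) / n := by
      rw [Nat.add_div hn]
      split_ifs with hif
      · have : ((c * i) % n + (c * j) % n) / n = 1 := by
          have h1 := Nat.mod_lt (c * i) hn
          have h2 := Nat.mod_lt (c * j) hn
          apply Nat.div_eq_of_lt_le <;> omega
        rw [this]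
      · have : ((c * i) % n + (c * j) % n) / n = 0 := Nat.div_eq_of_lt (by omega)
        rw [this]
    have h2 : c * i + c * j = c * ((i + j) % n) + n * (c * ((i + j) / n)) := by
      have := (Nat.mod_add_div (i + j) n)
      calc c * i + c * j = c * (i + j) := by ring
        _ = c * ((i + j) % n + n * ((i + j) / n)) := by rw [this]
        _ = _ := by ring
    have h3 : (c * i + c * j) / n = (c * ((i + j) % n)) / n + c * ((i + j) / n) := by
      rw [h2, Nat.add_mul_div_left _ _ hn]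
    omega
  have E' := congrArg (fun m : ℕ => m • a) E
  simp only [add_smul] at E'
  rw [sub_add_eq_add_sub, sub_eq_sub_iff_add_eq_add, ← mul_smul]
  convert E' using 1 <;> abel

end Carry

/-! ## Invariant data -/

/-- the invariants `A^G` as an additive subgroup (no module structure: avoids the `ℤ`-module
diamond on `Rep ℤ G`). -/
def invts : AddSubgroup A where
  carrier := {a | ∀ g : G, A.ρ g a = a}
  add_mem' := fun {a b} ha hb g => by rw [map_add, ha g, hb g]
  zero_mem' := fun g => map_zero _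
  neg_mem' := fun {a} ha g => by rw [map_neg, ha g]

lemma mem_invts (a : A) : a ∈ invts A ↔ ∀ g : G, A.ρ g a = a := Iff.rfl

/-- An invariant datum: Frobenius characters `χ_n` and a valuation on the invariants. -/
structure InvDatum where
  /-- the Frobenius character of the unramified layer of degree `n` -/
  chi : ∀ n : ℕ+, G →* Multiplicative (ZMod n)
  /-- the valuation on `A^G` -/
  v : invts A →+ ℤ
  chi_level : ∀ n : ℕ+, ∃ U ∈ 𝒰.levels, ∀ s ∈ U, chi n s = 1
  chi_compat : ∀ (n m : ℕ+) (g : G), (n : ℕ) ∣ m →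
    (chiVal (chi n) g).val = (chiVal (chi m) g).val % n

namespace InvDatum

variable {𝒰 A} (D : InvDatum 𝒰 A)

/-- the carry cocycle `δχ_n ∪ a` as a level `2`-cocycle. -/
def carryZ (n : ℕ+) (a : invts A) : ↥(𝒰.Z₂ A) :=
  ⟨carry A (D.chi n) (a : A),
    carry_mem_cocycles₂ A (D.chi n) (a : A) (fun g => a.2 g),
    isConst₂_carry 𝒰 A (D.chi n) (D.chi_level n) (a : A)⟩

@[simp] lemma coe_carryZ (n : ℕ+) (a : invts A) :
    ((D.carryZ n a : ↥(𝒰.Z₂ A)) : G × G → A) = carry A (D.chi n) (a : A) := rfl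

lemma carryZ_add (n : ℕ+) (a b : invts A) :
    D.carryZ n (a + b) = D.carryZ n a + D.carryZ n b :=
  Subtype.ext (carry_add A (D.chi n) (a : A) (b : A))

lemma carryZ_zero (n : ℕ+) : D.carryZ n 0 = 0 :=
  Subtype.ext (carry_zero A (D.chi n))

/-- the unramified class `[δχ_n ∪ a] ∈ 𝒰.H2 A`, additive in `a`. -/
noncomputable def cls (n : ℕ+) : invts A →+ 𝒰.H2 A where
  toFun a := 𝒰.H2π A (D.carryZ n a)
  map_zero' := by rw [carryZ_zero, map_zero]
  map_add' a b := by rw [carryZ_add, map_add]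

lemma cls_apply (n : ℕ+) (a : invts A) : D.cls n a = 𝒰.H2π A (D.carryZ n a) := rfl

/-- two level cocycles differing by `d` of a level cochain have the same class. -/
lemma H2π_eq_of_sub_eq_d {c c' : ↥(𝒰.Z₂ A)} (x : G → A) (hx : 𝒰.IsConst₁ x)
    (h : (d₁₂ A).hom x = (c : G × G → A) - (c' : G × G → A)) : 𝒰.H2π A c = 𝒰.H2π A c' := by
  rw [← sub_eq_zero, ← map_sub, LevelStr.H2π_eq_zero_iff, LevelStr.mem_B₂_iff]
  exact ⟨x, hx, h⟩

/-- change of level: for `n ∣ m`, `cls m ((m / n) • a) = cls n a`. -/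
theorem cls_dvd (n m : ℕ+) (hnm : (n : ℕ) ∣ m) (a : invts A) :
    D.cls m (((m : ℕ) / (n : ℕ)) • a) = D.cls n a := by
  rw [cls_apply, cls_apply]
  refine H2π_eq_of_sub_eq_d (fun g => ((chiVal (D.chi m) g).val / (n : ℕ)) • (a : A))
    (isConst₁_of_char 𝒰 (D.chi m) (D.chi_level m) (fun z => (z.val / (n : ℕ)) • (a : A))) ?_
  rw [d_lift_primitive A hnm (D.chi n) (D.chi m) (fun g => D.chi_compat n m g hnm) (a : A)
    (fun g => a.2 g)]
  rfl

theorem cls_mul_right (n m : ℕ+) (a : invts A) :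
    D.cls (n * m) ((m : ℕ) • a) = D.cls n a := by
  have h := D.cls_dvd n (n * m) (by rw [PNat.mul_coe]; exact dvd_mul_right _ _) a
  rwa [PNat.mul_coe, Nat.mul_div_cancel_left _ n.pos] at h

theorem cls_mul_left (n m : ℕ+) (a : invts A) :
    D.cls (m * n) ((m : ℕ) • a) = D.cls n a := by
  rw [mul_comm m n, cls_mul_right]

/-- the class of the carry cocycle of a multiple `ψ = c · χ_n` of the Frobenius character. -/
theorem H2π_carry_of_char (n : ℕ+) (ψ : G →* Multiplicative (ZMod n)) (c : ℕ)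
    (hψ : ∀ g : G, chiVal ψ g = (c : ZMod n) * chiVal (D.chi n) g) (a : invts A)
    (hmem : carry A ψ (a : A) ∈ 𝒰.Z₂ A) :
    𝒰.H2π A ⟨carry A ψ (a : A), hmem⟩ = D.cls n (c • a) := by
  rw [cls_apply]
  symm
  refine H2π_eq_of_sub_eq_d (fun g => ((c * (chiVal (D.chi n) g).val) / (n : ℕ)) • (a : A))
    (isConst₁_of_char 𝒰 (D.chi n) (D.chi_level n)
      (fun z => ((c * z.val) / (n : ℕ)) • (a : A))) ?_
  rw [d_mul_primitive A c (D.chi n) ψ hψ (a : A) (fun g => a.2 g)]
  show _ = carry A (D.chi n) ((c • a : invts A) : A) - _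
  rw [AddSubgroup.coe_nsmul, carry_nsmul]

end InvDatum

/-! ## The invariant map -/

/-- `D` computes `𝒰.H2 A`: every class is unramified, and `cls n a = 0 ↔ n ∣ v a`. -/
structure IsLocalInv (D : InvDatum 𝒰 A) : Prop where
  pres : ∀ x : 𝒰.H2 A, ∃ (n : ℕ+) (a : invts A), x = D.cls n a
  ker : ∀ (n : ℕ+) (a : invts A), D.cls n a = 0 ↔ ((n : ℕ) : ℤ) ∣ D.v a

namespace IsLocalInv

variable {𝒰 A} {D : InvDatum 𝒰 A} (h : IsLocalInv 𝒰 A D)

include h in
/-- well-definedness of the invariant. -/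
theorem frac_eq_of_cls_eq {n m : ℕ+} {a b : invts A} (hab : D.cls n a = D.cls m b) :
    frac (D.v a) n = frac (D.v b) m := by
  rw [← D.cls_mul_right n m a, ← D.cls_mul_left m n b, ← sub_eq_zero, ← map_sub, h.ker] at hab
  rw [← frac_mul_mul' (D.v a) n m, ← frac_mul_mul (D.v b) m n, ← sub_eq_zero, ← frac_sub,
    frac_eq_zero_iff]
  simpa [map_sub, map_nsmul, nsmul_eq_mul] using hab

/-- the invariant, as a function. -/
noncomputable def invFun (x : 𝒰.H2 A) : AddCircle (1 : ℚ) :=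
  frac (D.v (h.pres x).choose_spec.choose) (h.pres x).choose

theorem invFun_cls (n : ℕ+) (a : invts A) : h.invFun (D.cls n a) = frac (D.v a) n :=
  (h.frac_eq_of_cls_eq (h.pres (D.cls n a)).choose_spec.choose_spec).symm

theorem invFun_add (x y : 𝒰.H2 A) : h.invFun (x + y) = h.invFun x + h.invFun y := by
  obtain ⟨n, a, rfl⟩ := h.pres x
  obtain ⟨m, b, rfl⟩ := h.pres y
  have e : D.cls n a + D.cls m b = D.cls (n * m) ((m : ℕ) • a + (n : ℕ) • b) := by
    rw [map_add, D.cls_mul_right, mul_comm n m, D.cls_mul_right]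
  rw [e, invFun_cls, invFun_cls, invFun_cls, map_add, map_nsmul, map_nsmul, frac_add,
    nsmul_eq_mul, nsmul_eq_mul, frac_mul_mul', mul_comm n m, frac_mul_mul']

/-- **the local invariant** `inv : 𝒰.H2 A →+ ℚ/ℤ`. -/
noncomputable def inv : 𝒰.H2 A →+ AddCircle (1 : ℚ) :=
  AddMonoidHom.mk' h.invFun h.invFun_add

/-- (L1) **the unramified formula**: `inv [δχ_n ∪ a] = v a / n`. -/
theorem inv_cls (n : ℕ+) (a : invts A) : h.inv (D.cls n a) = frac (D.v a) n :=
  h.invFun_cls n a

/-- (L4) the invariant is injective. -/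
theorem inv_injective : Function.Injective h.inv := by
  rw [injective_iff_map_eq_zero]
  intro x hx
  obtain ⟨n, a, rfl⟩ := h.pres x
  rw [inv_cls, frac_eq_zero_iff] at hx
  exact (h.ker n a).2 hx

/-- the invariant is surjective when the valuation is. -/
theorem inv_surjective (hv : Function.Surjective D.v) : Function.Surjective h.inv := by
  intro r
  obtain ⟨k, n, rfl⟩ := exists_frac r
  obtain ⟨a, rfl⟩ := hv k
  exact ⟨D.cls n a, h.inv_cls n a⟩

/-- uniqueness: an additive map with the unramified formula is `inv`. -/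
theorem inv_unique (φ : 𝒰.H2 A →+ AddCircle (1 : ℚ))
    (hφ : ∀ (n : ℕ+) (a : invts A), φ (D.cls n a) = frac (D.v a) n) : φ = h.inv := by
  ext x
  obtain ⟨n, a, rfl⟩ := h.pres x
  rw [hφ, inv_cls]

/-- the invariant as an isomorphism `𝒰.H2 A ≃+ ℚ/ℤ`. -/
noncomputable def invEquiv (hv : Function.Surjective D.v) : 𝒰.H2 A ≃+ AddCircle (1 : ℚ) :=
  AddEquiv.ofBijective h.inv ⟨h.inv_injective, h.inv_surjective hv⟩

@[simp] lemma invEquiv_apply (hv : Function.Surjective D.v) (x : 𝒰.H2 A) :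
    h.invEquiv hv x = h.inv x := rfl

/-- the invariant of the carry cocycle of any multiple `ψ = c · χ_n` of the Frobenius character:
`inv [δψ ∪ a] = c * v a / n`. -/
theorem inv_carry_of_char (n : ℕ+) (ψ : G →* Multiplicative (ZMod n)) (c : ℕ)
    (hψ : ∀ g : G, chiVal ψ g = (c : ZMod n) * chiVal (D.chi n) g) (a : invts A)
    (hmem : carry A ψ (a : A) ∈ 𝒰.Z₂ A) :
    h.inv (𝒰.H2π A ⟨carry A ψ (a : A), hmem⟩) = frac ((c : ℤ) * D.v a) n := by
  rw [D.H2π_carry_of_char n ψ c hψ a hmem, inv_cls, map_nsmul, nsmul_eq_mul]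

end IsLocalInv

/-! ## Divisibility and torsion -/

namespace IsLocalInv

variable {𝒰 A} {D : InvDatum 𝒰 A} (h : IsLocalInv 𝒰 A D)

include h in
/-- `𝒰.H2 A` is divisible (only `pres` is used). -/
theorem exists_nsmul_eq (m : ℕ+) (x : 𝒰.H2 A) : ∃ y : 𝒰.H2 A, (m : ℕ) • y = x := by
  obtain ⟨n, a, rfl⟩ := h.pres x
  exact ⟨D.cls (n * m) a, by rw [← map_nsmul, D.cls_mul_right]⟩

/-- an element of `ℚ/ℤ` killed by `m` is a multiple of `1/m`. -/
theorem _root_.Fermat.Agent.S55.LocInv28.Abstract.exists_frac_of_nsmul_eq_zero (m : ℕ+)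
    (r : AddCircle (1 : ℚ)) (hr : (m : ℕ) • r = 0) : ∃ k : ℤ, r = frac k m := by
  obtain ⟨k, n, rfl⟩ := exists_frac r
  rw [← frac_smul, frac_eq_zero_iff] at hr
  obtain ⟨z, hz⟩ := hr
  refine ⟨z, ?_⟩
  rw [← frac_mul_mul k n m, hz, mul_comm ((n : ℕ) : ℤ) z, mul_comm m n]
  have : (((n : ℕ) : ℤ)) * z = z * ((n : ℕ) : ℤ) := mul_comm _ _
  rw [← this, frac_mul_mul]

/-- the `m`-torsion of `𝒰.H2 A` is cyclic, generated by any class of invariant `1/m`. -/
theorem exists_zsmul_of_nsmul_eq_zero (m : ℕ+) (u : 𝒰.H2 A) (hu : h.inv u = frac 1 m)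
    (x : 𝒰.H2 A) (hx : (m : ℕ) • x = 0) : ∃ k : ℤ, x = k • u := by
  have h0 : (m : ℕ) • h.inv x = 0 := by rw [← map_nsmul, hx, map_zero]
  obtain ⟨k, hk⟩ := exists_frac_of_nsmul_eq_zero m _ h0
  refine ⟨k, h.inv_injective ?_⟩
  rw [map_zsmul, hu, hk]
  unfold frac
  rw [← AddCircle.coe_zsmul]
  congr 1
  rw [zsmul_eq_mul, Int.cast_one, mul_one_div]

/-- a class of invariant `1/m` has order exactly `m`. -/
theorem addOrderOf_eq_of_inv_eq (m : ℕ+) (u : 𝒰.H2 A) (hu : h.inv u = frac 1 m) :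
    addOrderOf u = m := by
  apply Nat.dvd_antisymm
  · apply addOrderOf_dvd_of_nsmul_eq_zero
    apply h.inv_injective
    rw [map_nsmul, hu, map_zero, ← frac_smul, frac_eq_zero_iff]
    simp
  · have h1 : addOrderOf u • u = 0 := addOrderOf_nsmul_eq_zero u
    have h2 : addOrderOf u • h.inv u = 0 := by rw [← map_nsmul, h1, map_zero]
    rw [hu, ← frac_smul, frac_eq_zero_iff, mul_one] at h2
    exact Int.natCast_dvd_natCast.1 h2

end IsLocalInv

/-! ## Restriction -/

section BaseChange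

variable {𝒰 A}
variable {H : Type} [Group H] {𝒱 : LevelStr H} {f : H →* G}

/-- `A^G → (Res_f A)^H`. -/
def resInvts (f : H →* G) : invts A →+ invts (Rep.res f A) where
  toFun a := ⟨(a : A), fun t => a.2 (f t)⟩
  map_zero' := rfl
  map_add' _ _ := rfl

@[simp] lemma coe_resInvts (a : invts A) : ((resInvts f a : invts (Rep.res f A)) : A) = a := rfl

/-- (L2) **restriction**: if the Frobenius characters satisfy `χ_n ∘ f = f₀ · χ'_n` and the
valuations `v' = e · v` on `A^G`, then `inv' (res x) = (e * f₀) • inv x`. -/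
theorem inv_res₂ (hf : LevelStr.IsContinuous 𝒱 𝒰 f) {D : InvDatum 𝒰 A}
    {D' : InvDatum 𝒱 (Rep.res f A)} (h : IsLocalInv 𝒰 A D) (h' : IsLocalInv 𝒱 (Rep.res f A) D')
    (e f₀ : ℕ)
    (hχ : ∀ (n : ℕ+) (t : H), chiVal (D.chi n) (f t) = (f₀ : ZMod n) * chiVal (D'.chi n) t)
    (hv : ∀ a : invts A, D'.v (resInvts f a) = (e : ℤ) * D.v a) (x : 𝒰.H2 A) :
    h'.inv (hf.res₂ A x) = (e * f₀) • h.inv x := by
  obtain ⟨n, a, rfl⟩ := h.pres x
  rw [InvDatum.cls_apply, LevelStr.IsContinuous.res₂_H2π]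
  have hmem : carry (Rep.res f A) ((D.chi n).comp f) ((resInvts f a : invts (Rep.res f A)) : A) ∈
      𝒱.Z₂ (Rep.res f A) := (hf.resZ₂ A (D.carryZ n a)).2
  have e1 : hf.resZ₂ A (D.carryZ n a) =
      ⟨carry (Rep.res f A) ((D.chi n).comp f) ((resInvts f a : invts (Rep.res f A)) : A), hmem⟩ :=
    Subtype.ext rfl
  rw [e1, h'.inv_carry_of_char n ((D.chi n).comp f) f₀ (fun t => hχ n t) (resInvts f a) hmem, hv,
    ← InvDatum.cls_apply, h.inv_cls, ← frac_smul]
  congr 1
  push_cast
  ring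

end BaseChange

end Fermat.Agent.S55.LocInv28.Abstract
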