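/-
S55 / 22-LOC-INV, part 22b (helper28): the norm criterion for carry cocycles with EXPLICIT
primitives (needed for level cohomology, where the primitive must be level-constant).

Same setting as helper91's `GlobalInv91.Carry`: `χ : Γ →* ℤ/n`, `s` with `χ s = 1`.
* `d_partialNorm`: `carry χ (N b) = d (g ↦ partialNorm s b (χ g).val)`, the primitive factors
  through `χ`.
* `exists_norm_of_d_eq_carry`: if `carry χ a = d x` and the restriction of `x` to `ker χ` is the
  coboundary of some `y`, then `a` is a norm.  (helper91's (C5) with the `H¹`-hypothesis only for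
  the cocycle at hand.)
Mathlib + GlobalInv91.Carry.
-/
import Mathlib
import Fermat.Agent.S55.GlobalInv91.Carry

set_option autoImplicit false
set_option linter.unusedSectionVars false

open groupCohomology

namespace Fermat.Agent.S55.LocInv28.CarryNorm

open Fermat.Agent.S55.GlobalInv91

universe u

variable {k Γ : Type u} [CommRing k] [Group Γ] {C : Rep k Γ} {n : ℕ} [NeZero n]
  {χ : Γ →* Multiplicative (ZMod n)} {s : Γ}

/-- the carry cocycle of a norm, with its explicit primitive. -/
theorem d_partialNorm {b : C} (hs : chiVal χ s = 1) (hb : ∀ z : Γ, χ z = 1 → C.ρ z b = b) :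
    (d₁₂ C).hom (fun g => partialNorm C s b (chiVal χ g).val) =
      carry C χ (partialNorm C s b n) := by
  funext ⟨g, h⟩
  rw [d₁₂_hom_apply, carry_apply]
  have h1 := rho_partialNorm hs hb g (chiVal χ h).val
  have h2 := val_add_val n (chiVal χ g) (chiVal χ h)
  have h3 := partialNorm_add_mul hs hb (chiVal χ g + chiVal χ h).val
    (carryNat n (chiVal χ g) (chiVal χ h))
  rw [← h2] at h3
  rw [h3] at h1
  show C.ρ g (partialNorm C s b (chiVal χ h).val) - partialNorm C s b (chiVal χ (g * h)).val +
      partialNorm C s b (chiVal χ g).val = _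
  rw [chiVal_mul, sub_add_eq_add_sub, h1]
  abel

/-- the converse: a primitive `x` of the carry cocycle of an invariant `a` whose restriction to
`ker χ` is the coboundary of `y` exhibits `a` as a norm. -/
theorem exists_norm_of_d_eq_carry {a : C} (hs : chiVal χ s = 1)
    (ha : ∀ g : Γ, C.ρ g a = a) (x : Γ → C)
    (hx : ∀ g h : Γ, C.ρ g (x h) - x (g * h) + x g = carry C χ a (g, h))
    (y : C) (hy : ∀ z : Γ, χ z = 1 → x z = C.ρ z y - y) :
    ∃ b : C, (∀ z : Γ, χ z = 1 → C.ρ z b = b) ∧ a = partialNorm C s b n := by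
  by_cases hn : n = 1
  · subst hn
    refine ⟨a, fun z _ => ha z, ?_⟩
    simp [partialNorm]
  simp only [carry_apply] at hx
  have hker : ∀ z : Γ, χ z = 1 → chiVal χ z = 0 := fun z hz => by
    show Multiplicative.toAdd (χ z) = 0
    rw [hz]; rfl
  set x' : Γ → C := fun g => x g - (C.ρ g y - y) with hx'def
  have hx' : ∀ g h : Γ, C.ρ g (x' h) - x' (g * h) + x' g =
      carryNat n (chiVal χ g) (chiVal χ h) • a := by
    intro g h
    rw [← hx g h]
    simp only [hx'def, map_sub, map_mul, Module.End.mul_apply]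
    abel
  have hx'Z : ∀ z : Γ, χ z = 1 → x' z = 0 := by
    intro z hz
    have := hy z hz
    simp only [hx'def]
    rw [sub_eq_zero]
    exact this
  have h3a : ∀ g z : Γ, χ z = 1 → x' (g * z) = x' g := by
    intro g z hz
    have := hx' g z
    rw [hker z hz, carryNat_zero_right, zero_smul, hx'Z z hz, map_zero, zero_sub,
      neg_add_eq_zero] at this
    exact this
  have h3b : ∀ z g : Γ, χ z = 1 → x' (z * g) = C.ρ z (x' g) := by
    intro z g hz
    have := hx' z g
    rw [hker z hz, carryNat_zero_left, zero_smul, hx'Z z hz, add_zero, sub_eq_zero] at this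
    exact this.symm
  have h4 : ∀ z g : Γ, χ z = 1 → C.ρ z (x' g) = x' g := by
    intro z g hz
    rw [← h3b z g hz]
    have hconj : χ (g⁻¹ * z * g) = 1 := by
      rw [map_mul, map_mul, hz, mul_one, map_inv, inv_mul_cancel]
    have : z * g = g * (g⁻¹ * z * g) := by group
    rw [this, h3a g _ hconj]
  refine ⟨x' s, fun z hz => h4 z s hz, ?_⟩
  have hsum : ∑ i ∈ Finset.range n, (C.ρ (s ^ i) (x' s) - x' (s ^ i * s) + x' (s ^ i)) =
      ∑ i ∈ Finset.range n, carryNat n ((i : ℕ) : ZMod n) 1 • a := by
    refine Finset.sum_congr rfl fun i _ => ?_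
    rw [hx' (s ^ i) s, chiVal_pow hs, hs]
  rw [← Finset.sum_smul, sum_carryNat_natCast_one hn, one_smul] at hsum
  rw [← hsum]
  have htel : ∑ i ∈ Finset.range n, (x' (s ^ i) - x' (s ^ i * s)) = x' (s ^ 0) - x' (s ^ n) := by
    have := Finset.sum_range_sub' (fun i => x' (s ^ i)) n
    simp only [pow_succ] at this
    exact this
  have hsn : χ (s ^ n) = 1 := by
    have : chiVal χ (s ^ n) = 0 := by rw [chiVal_pow hs]; exact ZMod.natCast_self n
    exact this
  have e1 : ∑ i ∈ Finset.range n, (C.ρ (s ^ i) (x' s) - x' (s ^ i * s) + x' (s ^ i)) =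
      partialNorm C s (x' s) n + ∑ i ∈ Finset.range n, (x' (s ^ i) - x' (s ^ i * s)) := by
    unfold partialNorm
    rw [← Finset.sum_add_distrib]
    refine Finset.sum_congr rfl fun i _ => ?_
    abel
  rw [e1, htel, pow_zero, hx'Z 1 (map_one χ), hx'Z _ hsn, sub_zero, add_zero]

end Fermat.Agent.S55.LocInv28.CarryNorm
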