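/-
S55 / 22-LOC-INV, part 22b (helper28): the local invariant datum of a `q`-adic field.

`K` finite over `ℚ_[q]` inside `Ω = PadicAlgCl q` (helper17's `LocField17.LF q`),
`G_K = ↥K.fixingSubgroup`, `A_K = Ωˣ` as a `G_K`-module, `𝒰` ANY level structure on `G_K` which is
*good*: `Ω` is smooth for it and every level is a pointwise stabiliser.
* `padicDatum K 𝒰 h : InvDatum 𝒰 (AK K)`: Frobenius characters `FrobChar.chi K n`, valuation
  `ord_K` on `(Ωˣ)^{G_K} = Kˣ`.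
* `cls_eq_zero_iff`: **the norm criterion** `cls n a = 0 ↔ n ∣ ord_K a`
  (`⇐`: norms from `K_n` (helper93/helper89) with the explicit primitive; `⇒`: Hilbert 90 in the
  limit (helper86) + helper91's converse).
* `isLocalInv_of_pres`: with `pres` (every class unramified) the datum computes `𝒰.H2 (AK K)`,
  so `inv_K : 𝒰.H2 (AK K) ≃+ ℚ/ℤ` with all the properties of `Abstract.lean`.
* `inv_res`: for `K ≤ L`: `inv_L ∘ res = (e * f) • inv_K`.
-/
import Mathlib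
import Fermat.Agent.S55.LocInv28.Abstract
import Fermat.Agent.S55.LocInv28.CarryNorm
import Fermat.Agent.S55.LocInv28.FrobChar
import Fermat.Agent.S55.KummerBr86.Hilbert90Lim
import Fermat.Agent.S55.UnrExt93.PadicHyp
import Fermat.Agent.S55.LocField17.UnrAdapt

set_option autoImplicit false
set_option linter.unusedSectionVars false

open CategoryTheory groupCohomology

namespace Fermat.Agent.S55.LocInv28.Padic

open Fermat.Agent.S55.Profin15 Fermat.Agent.S55.GlobalInv91 Fermat.Agent.S55.UnrExt93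
  Fermat.Agent.S55.LocField17 Fermat.Agent.S55.LocInv28.Abstract
  Fermat.Agent.S55.LocInv28.CarryNorm Fermat.Agent.S55.LocInv28.FrobChar

variable {q : ℕ} [Fact q.Prime]

/-- the absolute Galois group of `K` as a type. -/
abbrev GK (K : LF q) : Type := ↥K.fixingSubgroup

/-- `Ωˣ` as a `G_K`-module. -/
noncomputable abbrev AK (K : LF q) : Rep.{0, 0, 0} ℤ (GK K) :=
  Rep.res K.fixingSubgroup.subtype (Rep.ofAlgebraAutOnUnits ℚ_[q] (PadicAlgCl q))

lemma AK_ρ_apply (K : LF q) (g : GK K) (a : AK K) :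
    (AK K).ρ g a = Additive.ofMul (Units.map
      (((g : PadicAlgCl q ≃ₐ[ℚ_[q]] PadicAlgCl q) : PadicAlgCl q ≃ₐ[ℚ_[q]] PadicAlgCl q) :
        PadicAlgCl q →* PadicAlgCl q) (Additive.toMul (a : Additive (PadicAlgCl q)ˣ))) := rfl

lemma AK_ρ_val (K : LF q) (g : GK K) (a : AK K) :
    ((Additive.toMul ((AK K).ρ g a : Additive (PadicAlgCl q)ˣ) : (PadicAlgCl q)ˣ) : PadicAlgCl q) =
      (g : PadicAlgCl q ≃ₐ[ℚ_[q]] PadicAlgCl q)
        ((Additive.toMul (a : Additive (PadicAlgCl q)ˣ) : (PadicAlgCl q)ˣ) : PadicAlgCl q) := rfl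

/-- the element of `Ω` underlying an element of `A_K = Ωˣ`. -/
def valΩ (K : LF q) (a : AK K) : PadicAlgCl q :=
  ((Additive.toMul (a : Additive (PadicAlgCl q)ˣ) : (PadicAlgCl q)ˣ) : PadicAlgCl q)

lemma valΩ_injective (K : LF q) : Function.Injective (valΩ K) := fun _ _ h =>
  (Additive.toMul (α := (PadicAlgCl q)ˣ)).injective (Units.ext h)

lemma valΩ_ρ (K : LF q) (g : GK K) (a : AK K) :
    valΩ K ((AK K).ρ g a) = (g : PadicAlgCl q ≃ₐ[ℚ_[q]] PadicAlgCl q) (valΩ K a) := rfl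

lemma valΩ_ne_zero (K : LF q) (a : AK K) : valΩ K a ≠ 0 := Units.ne_zero _

lemma valΩ_add (K : LF q) (a b : AK K) : valΩ K (a + b) = valΩ K a * valΩ K b := rfl

lemma valΩ_zero (K : LF q) : valΩ K 0 = 1 := rfl

lemma valΩ_sum (K : LF q) {ι : Type*} (s : Finset ι) (F : ι → AK K) :
    valΩ K (∑ i ∈ s, F i) = ∏ i ∈ s, valΩ K (F i) := by
  classical
  induction s using Finset.induction_on with
  | empty => rw [Finset.sum_empty, Finset.prod_empty, valΩ_zero]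
  | insert i s hi ih => rw [Finset.sum_insert hi, Finset.prod_insert hi, valΩ_add, ih]

lemma ρ_eq_iff (K : LF q) (g : GK K) (a : AK K) :
    (AK K).ρ g a = a ↔ (g : PadicAlgCl q ≃ₐ[ℚ_[q]] PadicAlgCl q) (valΩ K a) = valΩ K a := by
  rw [← valΩ_ρ]
  exact ⟨fun h => congrArg (valΩ K) h, fun h => valΩ_injective K h⟩

/-- the element of `A_K` attached to a nonzero element of `Ω`. -/
noncomputable def ofΩ (K : LF q) (x : PadicAlgCl q) (hx : x ≠ 0) : AK K :=
  (Additive.ofMul (Units.mk0 x hx) : Additive (PadicAlgCl q)ˣ)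

lemma valΩ_ofΩ (K : LF q) (x : PadicAlgCl q) (hx : x ≠ 0) : valΩ K (ofΩ K x hx) = x := rfl

/-- a level structure on `G_K` is good if `Ω` is smooth and the levels are stabilisers. -/
structure GoodLevels (K : LF q) (𝒰 : LevelStr (GK K)) : Prop where
  smooth : ∀ x : PadicAlgCl q, ∃ U ∈ 𝒰.levels, ∀ s ∈ U,
    (s : PadicAlgCl q ≃ₐ[ℚ_[q]] PadicAlgCl q) x = x
  closed : ∀ U ∈ 𝒰.levels, ∃ T : Set (PadicAlgCl q), ∀ s : GK K,
    s ∈ U ↔ ∀ x ∈ T, (s : PadicAlgCl q ≃ₐ[ℚ_[q]] PadicAlgCl q) x = x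

section Invts

variable (K : LF q)

/-- the element of `K` underlying a `G_K`-invariant of `Ωˣ`. -/
def toK (a : invts (AK K)) : K :=
  ⟨valΩ K (a : AK K), mem_of_fixed fun s hs => (ρ_eq_iff K ⟨s, hs⟩ (a : AK K)).1 (a.2 ⟨s, hs⟩)⟩

lemma coe_toK (a : invts (AK K)) : ((toK K a : K) : PadicAlgCl q) = valΩ K (a : AK K) := rfl

lemma toK_ne_zero (a : invts (AK K)) : toK K a ≠ 0 := by
  intro h
  have := congrArg (fun z : K => (z : PadicAlgCl q)) h
  rw [coe_toK] at this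
  exact valΩ_ne_zero K _ this

lemma toK_add (a b : invts (AK K)) : toK K (a + b) = toK K a * toK K b := rfl

lemma toK_zero : toK K 0 = 1 := rfl

/-- the invariant attached to a unit of `K`. -/
noncomputable def ofK (u : (↥K)ˣ) : invts (AK K) :=
  ⟨ofΩ K ((u : K) : PadicAlgCl q) (by simp), fun g =>
    (ρ_eq_iff K g _).2 ((IntermediateField.mem_fixingSubgroup_iff _ _).1 g.2 _ (u : K).2)⟩

lemma toK_ofK (u : (↥K)ˣ) : toK K (ofK K u) = (u : K) := rfl

variable [FiniteDimensional ℚ_[q] K]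

/-- the valuation `ord_K` on `(Ωˣ)^{G_K} = Kˣ`. -/
noncomputable def vK : invts (AK K) →+ ℤ where
  toFun a := ord K (toK K a)
  map_zero' := by rw [toK_zero]; exact ord_one
  map_add' a b := by rw [toK_add]; exact ord_mul (toK_ne_zero K a) (toK_ne_zero K b)

lemma vK_apply (a : invts (AK K)) : vK K a = ord K (toK K a) := rfl

theorem vK_surjective : Function.Surjective (vK K) := by
  intro m
  have h0 : (unif K) ^ m ≠ 0 := zpow_ne_zero m (isUnif_unif K).1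
  refine ⟨ofK K (Units.mk0 _ h0), ?_⟩
  rw [vK_apply, toK_ofK, Units.val_mk0, ord_unif_zpow]

end Invts

section Datum

variable (K : LF q) [FiniteDimensional ℚ_[q] K] (𝒰 : LevelStr (GK K))

/-- the Frobenius characters are trivial on a level. -/
theorem chi_level (h𝒰 : GoodLevels K 𝒰) (n : ℕ+) :
    ∃ U ∈ 𝒰.levels, ∀ s ∈ U, chi K n s = 1 := by
  obtain ⟨ζ, hζ⟩ := exists_zeta K n.pos
  obtain ⟨U, hU, h⟩ := h𝒰.smooth ζ
  refine ⟨U, hU, fun s hs => (chi_eq_one_iff K n s).2 fun z hz => ?_⟩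
  have : NeZero (resCard q K ^ (n : ℕ) - 1) := ⟨resCard_pow_sub_one_ne_zero K n.pos⟩
  obtain ⟨k, -, rfl⟩ := hζ.eq_pow_of_pow_eq_one hz
  rw [map_pow, h s hs]

/-- **the invariant datum of `K`**. -/
noncomputable def padicDatum (h𝒰 : GoodLevels K 𝒰) : InvDatum 𝒰 (AK K) where
  chi := chi K
  v := vK K
  chi_level := chi_level K 𝒰 h𝒰
  chi_compat := fun n m g hnm => chi_compat K n m g hnm

@[simp] lemma padicDatum_chi (h𝒰 : GoodLevels K 𝒰) : (padicDatum K 𝒰 h𝒰).chi = chi K := rfl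
@[simp] lemma padicDatum_v (h𝒰 : GoodLevels K 𝒰) : (padicDatum K 𝒰 h𝒰).v = vK K := rfl

end Datum

/-! ## The norm criterion -/

section Ker

variable (K : LF q) [FiniteDimensional ℚ_[q] K] (𝒰 : LevelStr (GK K)) (h𝒰 : GoodLevels K 𝒰)

lemma valΩ_partialNorm (s : GK K) (b : AK K) (m : ℕ) :
    valΩ K (partialNorm (AK K) s b m) =
      ∏ i ∈ Finset.range m, ((s : PadicAlgCl q ≃ₐ[ℚ_[q]] PadicAlgCl q) ^ i) (valΩ K b) := by
  unfold partialNorm
  rw [valΩ_sum]
  refine Finset.prod_congr rfl fun i _ => ?_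
  rw [valΩ_ρ]
  rfl

lemma norm_valΩ (a : invts (AK K)) :
    ‖valΩ K (a : AK K)‖ = ‖((unif K : K) : PadicAlgCl q)‖ ^ vK K a := by
  have := norm_eq_zpow_ord (toK_ne_zero K a)
  rw [coe_toK] at this
  rw [this]
  rfl

/-- `⇐` of the norm criterion: if `n ∣ ord_K a` the class `[δχ_n ∪ a]` vanishes. -/
theorem cls_eq_zero_of_dvd (n : ℕ+) (a : invts (AK K)) (h : ((n : ℕ) : ℤ) ∣ vK K a) :
    (padicDatum K 𝒰 h𝒰).cls n a = 0 := by
  obtain ⟨k, hk⟩ := h
  obtain ⟨φ, hφK, hφ, -⟩ := exists_frob (K := K) n.pos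
  have hπ := isUnif_unif K
  have haK : valΩ K (a : AK K) ∈ K := (toK K a).2
  have ha0 : valΩ K (a : AK K) ≠ 0 := valΩ_ne_zero K _
  have hnorm : ∃ k : ℤ, ‖valΩ K (a : AK K)‖ =
      ‖((unif K : K) : PadicAlgCl q)‖ ^ (((n : ℕ) : ℤ) * k) := ⟨k, by rw [norm_valΩ, hk]⟩
  obtain ⟨b, hbKn, hb0, hprod⟩ := (unr_mem_norm_iff n.pos hφK hφ hπ haK ha0).2 hnorm
  set s : GK K := ⟨φ, hφK⟩ with hsdef
  have hs : chiVal (chi K n) s = 1 := chi_frob K n s hφ
  set B : AK K := ofΩ K b hb0 with hBdef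
  have hB : ∀ z : GK K, chi K n z = 1 → (AK K).ρ z B = B := fun z hz => by
    rw [ρ_eq_iff, hBdef, valΩ_ofΩ]
    exact (IntermediateField.mem_fixingSubgroup_iff _ _).1 ((chi_eq_one_iff_mem K n z).1 hz) b hbKn
  have hN : partialNorm (AK K) s B n = (a : AK K) := valΩ_injective K (by
    rw [valΩ_partialNorm, hBdef, valΩ_ofΩ]
    exact hprod)
  have hd := d_partialNorm (C := AK K) (χ := chi K n) (s := s) (b := B) hs hB
  rw [hN] at hd
  rw [InvDatum.cls_apply, LevelStr.H2π_eq_zero_iff, LevelStr.mem_B₂_iff]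
  exact ⟨_, isConst₁_of_char 𝒰 (chi K n) (chi_level K 𝒰 h𝒰 n)
    (fun z => partialNorm (AK K) s B z.val), hd⟩

/-- `⇒` of the norm criterion: if the class `[δχ_n ∪ a]` vanishes then `n ∣ ord_K a`. -/
theorem dvd_of_cls_eq_zero (n : ℕ+) (a : invts (AK K))
    (h : (padicDatum K 𝒰 h𝒰).cls n a = 0) : ((n : ℕ) : ℤ) ∣ vK K a := by
  rw [InvDatum.cls_apply, LevelStr.H2π_eq_zero_iff, LevelStr.mem_B₂_iff] at h
  obtain ⟨x, ⟨U, hU, hxU⟩, hdx⟩ := h
  have hx : ∀ g h : GK K, (AK K).ρ g (x h) - x (g * h) + x g =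
      carry (AK K) (chi K n) (a : AK K) (g, h) := fun g h => by
    have := congrFun hdx (g, h)
    rwa [d₁₂_hom_apply] at this
  obtain ⟨φ, hφK, hφ, -⟩ := exists_frob (K := K) n.pos
  have hπ := isUnif_unif K
  set s : GK K := ⟨φ, hφK⟩ with hsdef
  have hs : chiVal (chi K n) s = 1 := chi_frob K n s hφ
  -- Hilbert 90 on the kernel of `χ_n`
  obtain ⟨T, hT⟩ := h𝒰.closed U hU
  have hfin := 𝒰.finiteIndex U hU
  have hker0 : ∀ z : GK K, chi K n z = 1 → chiVal (chi K n) z = 0 := fun z hz => by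
    show Multiplicative.toAdd (chi K n z) = 0
    rw [hz]; rfl
  obtain ⟨y, hy⟩ : ∃ y : AK K, ∀ z : GK K, chi K n z = 1 → x z = (AK K).ρ z y - y := by
    let Γ : Subgroup (GK K) := (chi K n).ker
    let f : Γ →* (PadicAlgCl q ≃ₐ[ℚ_[q]] PadicAlgCl q) :=
      K.fixingSubgroup.subtype.comp Γ.subtype
    obtain ⟨b, hb⟩ := KummerBr86.Hilbert90Lim.exists_units_of_cocycle f (U.subgroupOf Γ)
      (fun z => Additive.toMul (x (z : GK K) : Additive (PadicAlgCl q)ˣ)) T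
      (fun z => by rw [Subgroup.mem_subgroupOf]; exact hT (z : GK K))
      (fun g h => by
        have h1 := hx (g : GK K) (h : GK K)
        rw [carry_apply, hker0 _ g.2, hker0 _ h.2, carryNat_zero_left, zero_smul,
          sub_add_eq_add_sub, sub_eq_zero] at h1
        have h2 : x ((g : GK K) * (h : GK K)) = x (g : GK K) + (AK K).ρ (g : GK K) (x (h : GK K)) := by
          rw [← h1, add_comm]
        exact congrArg (fun z : Additive (PadicAlgCl q)ˣ => Additive.toMul z) h2)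
      (fun g t ht => by
        have := hxU (g : GK K) (t : GK K) (Subgroup.mem_subgroupOf.1 ht)
        exact congrArg (fun z : Additive (PadicAlgCl q)ˣ => Additive.toMul z) this)
    refine ⟨(Additive.ofMul b : Additive (PadicAlgCl q)ˣ), fun z hz => ?_⟩
    have := hb ⟨z, hz⟩
    exact congrArg (fun w : (PadicAlgCl q)ˣ => (Additive.ofMul w : Additive (PadicAlgCl q)ˣ)) this
  obtain ⟨B, hBfix, haN⟩ := exists_norm_of_d_eq_carry (C := AK K) (χ := chi K n) (s := s)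
    (a := (a : AK K)) hs (fun g => a.2 g) x hx y hy
  -- `B` lies in `K_n`
  have hBKn : valΩ K B ∈ unr q K n := mem_of_fixed fun s' hs' => by
    have hsK : s' ∈ K.fixingSubgroup := IntermediateField.fixingSubgroup_antitone (le_unr K n) hs'
    exact (ρ_eq_iff K ⟨s', hsK⟩ B).1 (hBfix ⟨s', hsK⟩ ((chi_eq_one_iff_mem K n ⟨s', hsK⟩).2 hs'))
  have hprod : ∏ i ∈ Finset.range n, (φ ^ i) (valΩ K B) = valΩ K (a : AK K) := by
    rw [haN, valΩ_partialNorm]
  obtain ⟨k, hk⟩ := (unr_mem_norm_iff n.pos hφK hφ hπ (toK K a).2 (valΩ_ne_zero K _)).1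
    ⟨valΩ K B, hBKn, valΩ_ne_zero K B, hprod⟩
  refine ⟨k, ?_⟩
  rw [vK_apply, ord_eq_iff (toK_ne_zero K a)]
  exact hk

/-- **the norm criterion** `cls n a = 0 ↔ n ∣ ord_K a`. -/
theorem cls_eq_zero_iff (n : ℕ+) (a : invts (AK K)) :
    (padicDatum K 𝒰 h𝒰).cls n a = 0 ↔ ((n : ℕ) : ℤ) ∣ vK K a :=
  ⟨dvd_of_cls_eq_zero K 𝒰 h𝒰 n a, cls_eq_zero_of_dvd K 𝒰 h𝒰 n a⟩

/-- with `pres` (every class is unramified) the datum computes `𝒰.H2 (AK K)`. -/
theorem isLocalInv_of_pres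
    (hpres : ∀ x : 𝒰.H2 (AK K), ∃ (n : ℕ+) (a : invts (AK K)), x = (padicDatum K 𝒰 h𝒰).cls n a) :
    IsLocalInv 𝒰 (AK K) (padicDatum K 𝒰 h𝒰) where
  pres := hpres
  ker := cls_eq_zero_iff K 𝒰 h𝒰

end Ker

/-! ## Restriction to a finite extension -/

section BaseChange

variable {K L : LF q} [FiniteDimensional ℚ_[q] K] [FiniteDimensional ℚ_[q] L] (h : K ≤ L)

/-- the inclusion `G_L → G_K`. -/
noncomputable def inclG : GK L →* GK K := Subgroup.inclusion (IntermediateField.fixingSubgroup_antitone h)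

omit [FiniteDimensional ℚ_[q] K] [FiniteDimensional ℚ_[q] L] in
lemma res_inclG : Rep.res (inclG h) (AK K) = AK L := rfl

/-- (L2) **`inv_L ∘ res = [L : K] • inv_K`** (`[L : K] = e * f`, `LocField17.finrank_rel_eq`). -/
theorem inv_res (𝒰 : LevelStr (GK K)) (𝒱 : LevelStr (GK L)) (h𝒰 : GoodLevels K 𝒰)
    (h𝒱 : GoodLevels L 𝒱) (hf : LevelStr.IsContinuous 𝒱 𝒰 (inclG h))
    (hK : IsLocalInv 𝒰 (AK K) (padicDatum K 𝒰 h𝒰))
    (hL : IsLocalInv 𝒱 (AK L) (padicDatum L 𝒱 h𝒱)) (x : 𝒰.H2 (AK K)) :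
    hL.inv (hf.res₂ (AK K) x) = (ramIdx h * resDeg h) • hK.inv x := by
  refine inv_res₂ (A := AK K) (f := inclG h) hf hK
    (D' := (padicDatum L 𝒱 h𝒱 : InvDatum 𝒱 (Rep.res (inclG h) (AK K)))) hL
    (ramIdx h) (resDeg h) (fun n t => ?_) (fun a => ?_) x
  · exact chi_baseChange h (resCard_eq_pow_resDeg h) n t
  · show ord L (toK L (resInvts (inclG h) a)) = (ramIdx h : ℤ) * ord K (toK K a)
    rw [← ord_inclusion h (toK K a)]
    rfl

end BaseChange

end Fermat.Agent.S55.LocInv28.Padic
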