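/-
S55 / 22-LOC-INV, part 22b (helper28): the local invariant on the Krull levels.

`K` finite over `ℚ_[q]` inside `Ω = PadicAlgCl q`.  The named level structure on
`G_K = ↥K.fixingSubgroup` is `levelsK K := (galLevels ℚ_[q] Ω).comap K.fixingSubgroup.subtype`
(helper95's Krull levels of `Gal(Ω/ℚ_q)`, restricted): the levels are `G_E ∩ G_K`, `E/ℚ_q` finite
Galois.  It is good (`goodLevels_levelsK`), so the norm criterion holds.  The remaining input
`pres` is consumed in COCHAIN form `PresCochain K` (= helper81's `LocPres81.LF.pres_cochain`):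
every 2-cocycle of `G_K` constant modulo `G_L` (`L/K` finite, stable) is a Frobenius carry cocycle
up to the coboundary of a cochain constant modulo some `G_M`, `M` finite.
Exports: `isLocalInv_of_presCochain`, and for `h : PresCochain K`:
`invK K h : (levelsK K).H2 (AK K) ≃+ ℚ/ℤ` with the unramified formula, restriction, divisibility,
torsion bound.
-/
import Mathlib
import Fermat.Agent.S55.LocInv28.Padic
import Fermat.Agent.S55.KummerBr95.GalLevels
import Fermat.Agent.S55.UnrExt93.FrobChar

set_option autoImplicit false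
set_option linter.unusedSectionVars false
set_option linter.style.haveILetI false

open CategoryTheory groupCohomology IntermediateField

namespace Fermat.Agent.S55.LocInv28.Main

open Fermat.Agent.S55.Profin15 Fermat.Agent.S55.GlobalInv91 Fermat.Agent.S55.UnrExt93
  Fermat.Agent.S55.LocField17 Fermat.Agent.S55.LocInv28.Abstract
  Fermat.Agent.S55.LocInv28.FrobChar Fermat.Agent.S55.LocInv28.Padic
  Fermat.Agent.S55.KummerBr95

variable {q : ℕ} [Fact q.Prime]

/-! ## The two Frobenius characters agree -/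

section Bridge

variable (K : LF q) [FiniteDimensional ℚ_[q] K]

/-- helper93's `UnrExt93.frobChar` is the Frobenius character `FrobChar.chi`. -/
theorem chi_eq_frobChar (n : ℕ+) : chi K n = frobChar K (n : ℕ) := by
  ext s
  apply Multiplicative.toAdd.injective
  show chiVal (chi K n) s = chiVal (frobChar K (n : ℕ)) s
  rw [chi_eq_of_pow K n s (chiVal (frobChar K (n : ℕ)) s).val
    (fun z hz => actsAs_val_frobChar (K := K) (n := (n : ℕ)) s z hz), ZMod.natCast_zmod_val]

end Bridge

/-! ## The Krull levels of `G_K` -/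

section Levels

variable (K : LF q)

/-- the Krull level structure of `G_K = ↥K.fixingSubgroup`: the subgroups `G_E ∩ G_K`,
`E/ℚ_q` finite Galois. -/
noncomputable def levelsK : LevelStr (GK K) :=
  (galLevels ℚ_[q] (PadicAlgCl q)).comap K.fixingSubgroup.subtype

/-- every finite extension of `ℚ_q` is fixed by a level. -/
theorem exists_level_le (M : LF q) [FiniteDimensional ℚ_[q] M] :
    ∃ U ∈ (levelsK K).levels, ∀ s ∈ U,
      (s : PadicAlgCl q ≃ₐ[ℚ_[q]] PadicAlgCl q) ∈ M.fixingSubgroup := by
  obtain ⟨U, hU, hle⟩ := exists_galLevel_le (K := ℚ_[q]) (Ω := PadicAlgCl q) M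
  exact ⟨U.comap K.fixingSubgroup.subtype, ⟨U, hU, rfl⟩, fun s hs => hle hs⟩

/-- every level is `G_E ∩ G_K` for a finite `E/ℚ_q` whose fixing subgroup is normal. -/
theorem exists_field_of_level {U : Subgroup (GK K)} (hU : U ∈ (levelsK K).levels) :
    ∃ E : LF q, FiniteDimensional ℚ_[q] E ∧ E.fixingSubgroup.Normal ∧
      ∀ s : GK K, s ∈ U ↔ (s : PadicAlgCl q ≃ₐ[ℚ_[q]] PadicAlgCl q) ∈ E.fixingSubgroup := by
  obtain ⟨V, ⟨hVn, E, hE, rfl⟩, rfl⟩ := hU
  exact ⟨E, hE, hVn, fun s => Iff.rfl⟩

theorem goodLevels_levelsK : GoodLevels K (levelsK K) where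
  smooth := fun x => by
    have hx : IsIntegral ℚ_[q] x := (Algebra.IsAlgebraic.isAlgebraic x).isIntegral
    haveI : FiniteDimensional ℚ_[q] ℚ_[q]⟮x⟯ := IntermediateField.adjoin.finiteDimensional hx
    obtain ⟨U, hU, h⟩ := exists_level_le K ℚ_[q]⟮x⟯
    exact ⟨U, hU, fun s hs => (IntermediateField.mem_fixingSubgroup_iff _ _).1 (h s hs) x
      (IntermediateField.mem_adjoin_simple_self ℚ_[q] x)⟩
  closed := fun U hU => by
    obtain ⟨E, -, -, hE⟩ := exists_field_of_level K hU
    exact ⟨(E : Set (PadicAlgCl q)), fun s => by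
      rw [hE s, IntermediateField.mem_fixingSubgroup_iff]
      rfl⟩

end Levels

/-! ## `pres` from its cochain form -/

section Pres

variable (K : LF q) [FiniteDimensional ℚ_[q] K]

/-- **the remaining input, in cochain form** (helper81's `LocPres81` bridge from helper80's
`LocInv80.LF.main_LF`): every 2-cocycle of `G_K` with values in `Ωˣ` which is constant modulo `G_L`
(`L/K` finite and stable under `G_K`) is, up to the coboundary of a 1-cochain constant modulo some
`G_M` (`M/ℚ_q` finite), the carry cocycle of a Frobenius character and an element of `Kˣ`. -/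
def PresCochain : Prop :=
  ∀ L : LF q, FiniteDimensional ℚ_[q] L → K ≤ L →
    (∀ σ ∈ K.fixingSubgroup, ∀ x ∈ L, σ x ∈ L) →
    ∀ c : GK K × GK K → AK K, c ∈ cocycles₂ (AK K) →
      (∀ g g' s s' : GK K, (s : PadicAlgCl q ≃ₐ[ℚ_[q]] PadicAlgCl q) ∈ L.fixingSubgroup →
        (s' : PadicAlgCl q ≃ₐ[ℚ_[q]] PadicAlgCl q) ∈ L.fixingSubgroup →
        c (g * s, g' * s') = c (g, g')) →
      ∃ (n : ℕ+) (a : AK K) (y : GK K → AK K) (M : LF q), FiniteDimensional ℚ_[q] M ∧
        (∀ g : GK K, (AK K).ρ g a = a) ∧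
        (∀ g s : GK K, (s : PadicAlgCl q ≃ₐ[ℚ_[q]] PadicAlgCl q) ∈ M.fixingSubgroup →
          y (g * s) = y g) ∧
        c = carry (AK K) (chi K n) a + (d₁₂ (AK K)).hom y

/-- every class of `(levelsK K).H2 (AK K)` is unramified, given the cochain form. -/
theorem pres_of_presCochain (hP : PresCochain K) (x : (levelsK K).H2 (AK K)) :
    ∃ (n : ℕ+) (a : invts (AK K)),
      x = (padicDatum K (levelsK K) (goodLevels_levelsK K)).cls n a := by
  obtain ⟨c, rfl⟩ := Submodule.Quotient.mk_surjective _ x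
  obtain ⟨hcoc, U, hU, hconst⟩ := c.2
  obtain ⟨E, hE, -, hEU⟩ := exists_field_of_level K hU
  -- a finite normal extension containing `E` and `K`
  haveI := hE
  let L : LF q := IntermediateField.normalClosure ℚ_[q] (↥(E ⊔ K)) (PadicAlgCl q)
  haveI hLn : Normal ℚ_[q] L := normalClosure.normal ℚ_[q] (↥(E ⊔ K)) (PadicAlgCl q)
  haveI hLf : FiniteDimensional ℚ_[q] L := inferInstance
  have hle : E ⊔ K ≤ L := IntermediateField.le_normalClosure (E ⊔ K)
  have hstab : ∀ σ ∈ K.fixingSubgroup, ∀ x ∈ L, σ x ∈ L := fun σ _ x hx =>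
    (IntermediateField.normal_iff_forall_map_le'.1 hLn σ) ⟨x, hx, rfl⟩
  obtain ⟨n, a, y, M, hM, ha, hy, hc⟩ := hP L hLf (le_sup_right.trans hle) hstab
    (c : GK K × GK K → AK K) hcoc (fun g g' s s' hs hs' =>
      hconst g g' s s'
        ((hEU s).2 (IntermediateField.fixingSubgroup_antitone (le_sup_left.trans hle) hs))
        ((hEU s').2 (IntermediateField.fixingSubgroup_antitone (le_sup_left.trans hle) hs')))
  haveI := hM
  obtain ⟨U', hU', hU'M⟩ := exists_level_le K M
  refine ⟨n, ⟨a, ha⟩, ?_⟩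
  rw [InvDatum.cls_apply]
  refine InvDatum.H2π_eq_of_sub_eq_d (𝒰 := levelsK K) (A := AK K) y
    ⟨U', hU', fun g s hs => hy g s (hU'M s hs)⟩ ?_
  rw [InvDatum.coe_carryZ]
  show _ = (c : GK K × GK K → AK K) - carry (AK K) (chi K n) a
  rw [hc]
  abel

/-- **the local invariant datum computes the Brauer group**, given the cochain form of `pres`. -/
theorem isLocalInv_of_presCochain (hP : PresCochain K) :
    IsLocalInv (levelsK K) (AK K) (padicDatum K (levelsK K) (goodLevels_levelsK K)) :=
  isLocalInv_of_pres K (levelsK K) (goodLevels_levelsK K) (pres_of_presCochain K hP)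

/-- **the local invariant** `inv_K : Br(K) = H²(G_K, Ωˣ) ≃+ ℚ/ℤ`. -/
noncomputable def invK (hP : PresCochain K) : (levelsK K).H2 (AK K) ≃+ AddCircle (1 : ℚ) :=
  (isLocalInv_of_presCochain K hP).invEquiv (vK_surjective K)

/-- (L1) the unramified formula: `inv_K [δχ_{K,n} ∪ a] = ord_K a / n`. -/
theorem invK_cls (hP : PresCochain K) (n : ℕ+) (a : invts (AK K)) :
    invK K hP ((padicDatum K (levelsK K) (goodLevels_levelsK K)).cls n a) = frac (vK K a) n :=
  (isLocalInv_of_presCochain K hP).inv_cls n a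

end Pres

/-! ## Restriction -/

section Res

variable {K L : LF q} [FiniteDimensional ℚ_[q] K] [FiniteDimensional ℚ_[q] L] (h : K ≤ L)

omit [FiniteDimensional ℚ_[q] K] [FiniteDimensional ℚ_[q] L] in
/-- the inclusion `G_L → G_K` is continuous for the Krull levels. -/
theorem isContinuous_inclG : LevelStr.IsContinuous (levelsK L) (levelsK K) (inclG h) := by
  rintro U ⟨V, hV, rfl⟩
  exact ⟨V.comap L.fixingSubgroup.subtype, ⟨V, hV, rfl⟩, fun s hs => hs⟩

/-- (L2) **`inv_L ∘ res = [L : K] • inv_K`**. -/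
theorem invK_res (hK : PresCochain K) (hL : PresCochain L) (x : (levelsK K).H2 (AK K)) :
    invK L hL ((isContinuous_inclG h).res₂ (AK K) x) = (ramIdx h * resDeg h) • invK K hK x :=
  inv_res h (levelsK K) (levelsK L) (goodLevels_levelsK K) (goodLevels_levelsK L)
    (isContinuous_inclG h) (isLocalInv_of_presCochain K hK) (isLocalInv_of_presCochain L hL) x

end Res

end Fermat.Agent.S55.LocInv28.Main
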