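/-
S55 / 22-LOC-INV, part 22b (helper28): the local invariant for ANY model of `G_K`.

`Γ` any group with an injective `ι : Γ →* Gal(Ω/ℚ_q)` (`Ω = PadicAlgCl q`) whose range is
`K.fixingSubgroup` (`K/ℚ_q` finite), and ANY level structure `𝒱` on `Γ` which is `LevelEquiv`
(helper95) to the Krull levels pulled back along `ι`.  Examples: `Γ = ↥D`, `D` an open subgroup of
`Gal(Ω/ℚ_q)` (decomposition groups `twSub`), `Γ = Gal(Ω/ℚ_q)` itself (`K = ⊥`),
`Γ = primeLocalGaloisGroup q` with `pullLevels`.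
`invGen : 𝒱.H2 (Rep.res ι (localUnits)) ≃+ ℚ/ℤ`, transported from `Main.invK`, with the unramified
formula on carry cocycles.
-/
import Mathlib
import Fermat.Agent.S55.LocInv28.Main
import Fermat.Agent.S55.KummerBr95.LevelEquiv
import Fermat.Agent.S55.KummerBr95.GalKummer
import Fermat.Agent.S55.KummerBr95.Padic

set_option autoImplicit false
set_option linter.unusedSectionVars false
set_option linter.style.haveILetI false

open CategoryTheory groupCohomology IntermediateField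

namespace Fermat.Agent.S55.LocInv28.OpenSub

open Fermat.Agent.S55.Profin15 Fermat.Agent.S55.GlobalInv91 Fermat.Agent.S55.UnrExt93
  Fermat.Agent.S55.LocField17 Fermat.Agent.S55.LocInv28.Abstract
  Fermat.Agent.S55.LocInv28.FrobChar Fermat.Agent.S55.LocInv28.Padic
  Fermat.Agent.S55.LocInv28.Main Fermat.Agent.S55.KummerBr95

variable {q : ℕ} [Fact q.Prime]

/-- `Ωˣ` as a module over the full local Galois group. -/
noncomputable abbrev Om (q : ℕ) [Fact q.Prime] :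
    Rep.{0, 0, 0} ℤ (PadicAlgCl q ≃ₐ[ℚ_[q]] PadicAlgCl q) :=
  Rep.ofAlgebraAutOnUnits ℚ_[q] (PadicAlgCl q)

variable {Γ : Type} [Group Γ] (ι : Γ →* (PadicAlgCl q ≃ₐ[ℚ_[q]] PadicAlgCl q))
  (hι : Function.Injective ι) (K : LF q) (hK : ι.range = K.fixingSubgroup)

/-- the isomorphism `Γ ≃* G_K`. -/
noncomputable def toGK : Γ ≃* GK K :=
  (MonoidHom.ofInjective hι).trans (MulEquiv.subgroupCongr hK)

lemma coe_toGK (g : Γ) :
    ((toGK ι hι K hK g : GK K) : PadicAlgCl q ≃ₐ[ℚ_[q]] PadicAlgCl q) = ι g := rfl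

lemma res_toGK : Rep.res ((toGK ι hι K hK : Γ ≃* GK K) : Γ →* GK K) (AK K) = Rep.res ι (Om q) :=
  rfl

/-- the Krull levels of `G_K` pulled back to `Γ` are the Krull levels pulled back along `ι`. -/
theorem levelEquiv_comap_toGK :
    LevelEquiv ((levelsK K).comap ((toGK ι hι K hK : Γ ≃* GK K) : Γ →* GK K))
      ((galLevels ℚ_[q] (PadicAlgCl q)).comap ι) := by
  constructor
  · rintro W ⟨U', ⟨U, hU, rfl⟩, rfl⟩
    exact ⟨U.comap ι, ⟨U, hU, rfl⟩, fun g hg => hg⟩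
  · rintro W ⟨U, hU, rfl⟩
    exact ⟨(U.comap K.fixingSubgroup.subtype).comap ((toGK ι hι K hK : Γ ≃* GK K) : Γ →* GK K),
      ⟨_, ⟨U, hU, rfl⟩, rfl⟩, fun g hg => hg⟩

variable [FiniteDimensional ℚ_[q] K] (𝒱 : LevelStr Γ)
  (h𝒱 : LevelEquiv 𝒱 ((galLevels ℚ_[q] (PadicAlgCl q)).comap ι))

/-- the comparison `𝒱.H2 (Res_ι Ωˣ) ≃ H²(G_K, Ωˣ)` (identity on cocycles up to `toGK`). -/
noncomputable def h2Equiv :
    𝒱.H2 (Rep.res ι (Om q)) ≃+ (levelsK K).H2 (AK K) :=
  ((h𝒱.trans (levelEquiv_comap_toGK ι hι K hK).symm).H2Equiv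
    (Rep.res ι (Om q))).toAddEquiv.trans
    (resEquiv₂ (levelsK K) (toGK ι hι K hK) (AK K)).toAddEquiv.symm

/-- **the local invariant for the model `(Γ, ι, 𝒱)` of `G_K`**. -/
noncomputable def invGen (hP : PresCochain K) : 𝒱.H2 (Rep.res ι (Om q)) ≃+ AddCircle (1 : ℚ) :=
  (h2Equiv ι hι K hK 𝒱 h𝒱).trans (invK K hP)

/-- the Frobenius characters of the model. -/
noncomputable def chiGen (n : ℕ+) : Γ →* Multiplicative (ZMod n) :=
  (chi K n).comp ((toGK ι hι K hK : Γ ≃* GK K) : Γ →* GK K)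

/-- `h2Equiv` on cocycles: the class of `c ∘ toGK` (`c` a level cocycle of `G_K`) corresponds to
the class of `c`. -/
theorem h2Equiv_H2π (c : ↥((levelsK K).Z₂ (AK K)))
    (hmem : (fun p : Γ × Γ => (c : GK K × GK K → AK K)
      (toGK ι hι K hK p.1, toGK ι hι K hK p.2)) ∈ 𝒱.Z₂ (Rep.res ι (Om q))) :
    h2Equiv ι hι K hK 𝒱 h𝒱 (𝒱.H2π (Rep.res ι (Om q)) ⟨_, hmem⟩) =
      (levelsK K).H2π (AK K) c := by
  have key : resEquiv₂ (levelsK K) (toGK ι hι K hK) (AK K) ((levelsK K).H2π (AK K) c) =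
      (h𝒱.trans (levelEquiv_comap_toGK ι hι K hK).symm).H2Equiv (Rep.res ι (Om q))
        (𝒱.H2π _ ⟨_, hmem⟩) := rfl
  exact (LinearEquiv.symm_apply_eq
    (resEquiv₂ (levelsK K) (toGK ι hι K hK) (AK K))).2 key.symm

/-- (L1) for the model: the invariant of the carry cocycle of `chiGen n` and `a ∈ Kˣ`. -/
theorem invGen_carry (hP : PresCochain K) (n : ℕ+) (a : invts (AK K))
    (hmem : carry (Rep.res ι (Om q)) (chiGen ι hι K hK n) (a : AK K) ∈ 𝒱.Z₂ (Rep.res ι (Om q))) :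
    invGen ι hι K hK 𝒱 h𝒱 hP (𝒱.H2π (Rep.res ι (Om q)) ⟨_, hmem⟩) = frac (vK K a) n := by
  have h2 : (h2Equiv ι hι K hK 𝒱 h𝒱) (𝒱.H2π (Rep.res ι (Om q)) ⟨_, hmem⟩) =
      (padicDatum K (levelsK K) (goodLevels_levelsK K)).cls n a :=
    h2Equiv_H2π ι hι K hK 𝒱 h𝒱
      ((padicDatum K (levelsK K) (goodLevels_levelsK K)).carryZ n a) hmem
  show invK K hP ((h2Equiv ι hι K hK 𝒱 h𝒱) _) = _
  rw [h2, invK_cls]

/-! ### Open subgroups `D ≤ Gal(Ω/ℚ_q)` (decomposition groups) -/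

section Sub

variable (D : Subgroup (PadicAlgCl q ≃ₐ[ℚ_[q]] PadicAlgCl q))
  (hD : ∃ W ∈ (galLevels ℚ_[q] (PadicAlgCl q)).levels, W ≤ D)

/-- the fixed field of the open subgroup `D` -/
noncomputable def fieldOf : LF q := (exists_fixingSubgroup_eq D hD).choose

instance fieldOf_finite : FiniteDimensional ℚ_[q] (fieldOf D hD) :=
  (exists_fixingSubgroup_eq D hD).choose_spec.1

theorem fixingSubgroup_fieldOf : (fieldOf D hD).fixingSubgroup = D :=
  (exists_fixingSubgroup_eq D hD).choose_spec.2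

theorem range_subtype_eq : D.subtype.range = (fieldOf D hD).fixingSubgroup := by
  rw [fixingSubgroup_fieldOf, Subgroup.range_subtype]

variable (hP : ∀ (K : LF q) [FiniteDimensional ℚ_[q] K], PresCochain K)
  (𝒱 : LevelStr ↥D) (h𝒱 : LevelEquiv 𝒱 ((galLevels ℚ_[q] (PadicAlgCl q)).comap D.subtype))

/-- **the local invariant of the fixed field of an open subgroup `D ≤ Gal(Ω/ℚ_q)`**, on the level
cohomology of `D` (any level structure with the Krull topology) with coefficients `Res_D Ωˣ`. -/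
noncomputable def invSub : 𝒱.H2 (Rep.res D.subtype (Om q)) ≃+ AddCircle (1 : ℚ) :=
  invGen D.subtype D.subtype_injective (fieldOf D hD) (range_subtype_eq D hD) 𝒱 h𝒱
    (hP (fieldOf D hD))

theorem invSub_inj (x : 𝒱.H2 (Rep.res D.subtype (Om q))) (h : invSub D hD hP 𝒱 h𝒱 x = 0) :
    x = 0 :=
  (invSub D hD hP 𝒱 h𝒱).injective (h.trans (map_zero _).symm)

theorem invSub_surj (t : AddCircle (1 : ℚ)) (m : ℕ) (ht : m • t = 0) :
    ∃ x : 𝒱.H2 (Rep.res D.subtype (Om q)), m • x = 0 ∧ invSub D hD hP 𝒱 h𝒱 x = t := by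
  refine ⟨(invSub D hD hP 𝒱 h𝒱).symm t, ?_, AddEquiv.apply_symm_apply _ t⟩
  rw [← map_nsmul, ht, map_zero]

end Sub

/-! ### The shape used on the `J_S`-side (helper64 `MainOpen.levelsW / unitsW`) -/

section PullLevels

variable (D : Subgroup (PadicAlgCl q ≃ₐ[ℚ_[q]] PadicAlgCl q))

theorem pullLevels_equiv_gal :
    LevelEquiv (pullLevels (localGaloisToGlobal q)) (galLevels ℚ_[q] (PadicAlgCl q)) :=
  pullLevels_equiv ⟨q, Fact.out⟩

variable (hD : ∃ W ∈ (pullLevels (localGaloisToGlobal q)).levels, W ≤ D)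

include hD in
theorem exists_galLevel_le_of_pull : ∃ W ∈ (galLevels ℚ_[q] (PadicAlgCl q)).levels, W ≤ D := by
  obtain ⟨W, hW, hle⟩ := hD
  obtain ⟨W', hW', hle'⟩ := (pullLevels_equiv_gal (q := q)).1 W hW
  exact ⟨W', hW', hle'.trans hle⟩

variable (hP : ∀ (K : LF q) [FiniteDimensional ℚ_[q] K], PresCochain K)

/-- the local invariant on `H²(G_w; Ωˣ)` for the levels `(pullLevels r).comap G_w.subtype`
pulled back from `G_ℚ`. -/
noncomputable def invW :
    ((pullLevels (localGaloisToGlobal q)).comap D.subtype).H2 (Rep.res D.subtype (Om q)) ≃+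
      AddCircle (1 : ℚ) :=
  invSub D (exists_galLevel_le_of_pull D hD) hP _ ((pullLevels_equiv_gal (q := q)).comap D.subtype)

theorem invW_inj
    (x : ((pullLevels (localGaloisToGlobal q)).comap D.subtype).H2 (Rep.res D.subtype (Om q)))
    (h : invW D hD hP x = 0) : x = 0 :=
  invSub_inj D _ hP _ _ x h

theorem invW_surj (t : AddCircle (1 : ℚ)) (m : ℕ) (ht : m • t = 0) :
    ∃ x : ((pullLevels (localGaloisToGlobal q)).comap D.subtype).H2 (Rep.res D.subtype (Om q)),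
      m • x = 0 ∧ invW D hD hP x = t :=
  invSub_surj D _ hP _ _ t m ht

end PullLevels

end Fermat.Agent.S55.LocInv28.OpenSub
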