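/-
S55 / 22-LOC-INV, part 22b (helper28): the base case `K = ℚ_q` of the local invariant, on the
literal carrier used by the reciprocity plugs: `G = Gal(Ω/ℚ_q)` (`Ω = PadicAlgCl q`), levels
`pullLevels (localGaloisToGlobal q)` pulled back from `G_ℚ`, module `Ωˣ`.  Also: an additive
equivalence onto `ℚ/ℤ` has `m`-torsion elements of non-zero image (`hne`).
-/
import Mathlib
import Fermat.Agent.S55.LocInv28.OpenSub

set_option autoImplicit false
set_option linter.unusedSectionVars false
set_option linter.style.haveILetI false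

open CategoryTheory groupCohomology IntermediateField

namespace Fermat.Agent.S55.LocInv28.Base

open Fermat.Agent.S55.Profin15 Fermat.Agent.S55.GlobalInv91 Fermat.Agent.S55.UnrExt93
  Fermat.Agent.S55.LocField17 Fermat.Agent.S55.LocInv28.Abstract
  Fermat.Agent.S55.LocInv28.FrobChar Fermat.Agent.S55.LocInv28.Padic
  Fermat.Agent.S55.LocInv28.Main Fermat.Agent.S55.KummerBr95 Fermat.Agent.S55.LocInv28.OpenSub

/-- pulling a level structure back along the identity changes nothing. -/
theorem levelEquiv_comap_id {G : Type} [Group G] (𝒰 : LevelStr G) :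
    LevelEquiv 𝒰 (𝒰.comap (MonoidHom.id G)) := by
  constructor
  · intro U hU
    exact ⟨U.comap (MonoidHom.id G), ⟨U, hU, rfl⟩, fun g hg => hg⟩
  · rintro V ⟨U, hU, rfl⟩
    exact ⟨U, hU, fun g hg => hg⟩

/-- an additive equivalence onto `ℚ/ℤ` has `m`-torsion elements with non-zero image (`1 < m`). -/
theorem exists_torsion_ne {X : Type*} [AddCommGroup X] (e : X ≃+ AddCircle (1 : ℚ)) (m : ℕ)
    (hm : 1 < m) : ∃ z : X, m • z = 0 ∧ e z ≠ 0 := by
  have hpos : 0 < m := by omega
  obtain ⟨n, hn⟩ : ∃ n : ℕ+, (n : ℕ) = m := ⟨⟨m, hpos⟩, rfl⟩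
  refine ⟨e.symm (frac 1 n), ?_, ?_⟩
  · apply e.injective
    rw [map_nsmul, AddEquiv.apply_symm_apply, map_zero, ← frac_smul, frac_eq_zero_iff, hn]
    simp
  · rw [AddEquiv.apply_symm_apply, Ne, frac_eq_zero_iff, hn]
    intro h
    have h1 : (m : ℤ) ≤ 1 := Int.le_of_dvd one_pos h
    omega

variable {q : ℕ} [Fact q.Prime]

theorem range_id_eq :
    (MonoidHom.id (PadicAlgCl q ≃ₐ[ℚ_[q]] PadicAlgCl q)).range = (⊥ : LF q).fixingSubgroup := by
  rw [MonoidHom.range_eq_top.2 (fun x => ⟨x, rfl⟩)]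
  exact (IntermediateField.fixingSubgroup_bot).symm

/-- **the local invariant of `ℚ_q`** on `H²(Gal(Ω/ℚ_q); Ωˣ)` for the levels pulled back from
`G_ℚ`. -/
noncomputable def invBase (hP : PresCochain (⊥ : LF q)) :
    (pullLevels (localGaloisToGlobal q)).H2 (Om q) ≃+ AddCircle (1 : ℚ) :=
  invGen (MonoidHom.id _) Function.injective_id (⊥ : LF q) range_id_eq
    (pullLevels (localGaloisToGlobal q))
    ((pullLevels_equiv_gal (q := q)).trans (levelEquiv_comap_id _)) hP

/-- the Frobenius characters of `ℚ_q` on the full local Galois group. -/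
noncomputable def chiBase (n : ℕ+) :
    (PadicAlgCl q ≃ₐ[ℚ_[q]] PadicAlgCl q) →* Multiplicative (ZMod n) :=
  chiGen (MonoidHom.id _) Function.injective_id (⊥ : LF q) range_id_eq n

/-- the unramified formula over `ℚ_q`. -/
theorem invBase_carry (hP : PresCochain (⊥ : LF q)) (n : ℕ+) (a : invts (AK (⊥ : LF q)))
    (hmem : carry (Om q) (chiBase (q := q) n) (a : AK (⊥ : LF q)) ∈
      (pullLevels (localGaloisToGlobal q)).Z₂ (Om q)) :
    invBase hP ((pullLevels (localGaloisToGlobal q)).H2π (Om q) ⟨_, hmem⟩) =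
      frac (vK (⊥ : LF q) a) n :=
  invGen_carry (MonoidHom.id _) Function.injective_id (⊥ : LF q) range_id_eq
    (pullLevels (localGaloisToGlobal q))
    ((pullLevels_equiv_gal (q := q)).trans (levelEquiv_comap_id _)) hP n a hmem

/-- `hne` over `ℚ_q`. -/
theorem exists_torsion_invBase_ne (hP : PresCochain (⊥ : LF q)) (m : ℕ) (hm : 1 < m) :
    ∃ z : (pullLevels (localGaloisToGlobal q)).H2 (Om q), m • z = 0 ∧ invBase hP z ≠ 0 :=
  exists_torsion_ne (invBase hP) m hm

end Fermat.Agent.S55.LocInv28.Base
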