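/-
S55 / 22-LOC-INV, part 22b (helper28): THE LOCAL INVARIANT, UNCONDITIONALLY.

`pres` (every class of `Br(K)` is unramified) is helper71's `P2Local71.presCochain` (torsion bound
`|Br(K)[n]| ≤ n` + the norm criterion of `LocInv28.Padic`).  This file removes the hypothesis
`PresCochain` from all exports of `LocInv28.{Main,OpenSub,Base}`:

* `inv K : H²(G_K; Ωˣ) ≃+ ℚ/ℤ` for every finite `K/ℚ_q`, `inv_cls` (unramified formula),
  `inv_res` (`inv_L ∘ res = [L:K] • inv_K`), `isLocalInv`;
* `invOpen D hD` for every open subgroup `D` of `Gal(Ω/ℚ_q)` on the carrier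
  `((pullLevels r).comap D.subtype).H2 (Res_D Ωˣ)` (decomposition groups on the `J_S`-side);
* `invQ` for `ℚ_q` itself on `(pullLevels r).H2 Ωˣ`, with `exists_torsion_invQ_ne` (`hne`);
* `localPres q : KummerBr95.LocalPres q`.
-/
import Mathlib
import Fermat.Agent.S55.LocInv28.Base
import Fermat.Agent.S55.P2Local71.Pres
import Fermat.Agent.S55.KummerBr95.BrBound28

set_option autoImplicit false
set_option linter.unusedSectionVars false
set_option linter.style.haveILetI false

open CategoryTheory groupCohomology IntermediateField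

namespace Fermat.Agent.S55.LocInv28.Final

open Fermat.Agent.S55.Profin15 Fermat.Agent.S55.GlobalInv91 Fermat.Agent.S55.UnrExt93
  Fermat.Agent.S55.LocField17 Fermat.Agent.S55.LocInv28.Abstract
  Fermat.Agent.S55.LocInv28.FrobChar Fermat.Agent.S55.LocInv28.Padic
  Fermat.Agent.S55.LocInv28.Main Fermat.Agent.S55.KummerBr95 Fermat.Agent.S55.LocInv28.OpenSub
  Fermat.Agent.S55.LocInv28.Base

variable {q : ℕ} [Fact q.Prime]

section Field

variable (K : LF q) [FiniteDimensional ℚ_[q] K]

/-- **every class of `Br(K)` is unramified** (cochain form). -/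
theorem presCochain : PresCochain K := P2Local71.presCochain K

/-- the datum `(χ_{K,n}, ord_K)` computes `Br(K)`. -/
theorem isLocalInv :
    IsLocalInv (levelsK K) (AK K) (padicDatum K (levelsK K) (goodLevels_levelsK K)) :=
  isLocalInv_of_presCochain K (presCochain K)

/-- **the local invariant** `inv_K : Br(K) = H²(G_K; Ωˣ) ≃+ ℚ/ℤ`, unconditionally. -/
noncomputable def inv : (levelsK K).H2 (AK K) ≃+ AddCircle (1 : ℚ) := invK K (presCochain K)

/-- (L1) the unramified formula `inv_K [δχ_{K,n} ∪ a] = ord_K a / n`. -/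
theorem inv_cls (n : ℕ+) (a : invts (AK K)) :
    inv K ((padicDatum K (levelsK K) (goodLevels_levelsK K)).cls n a) = frac (vK K a) n :=
  invK_cls K (presCochain K) n a

/-- every class is unramified (class form). -/
theorem pres (x : (levelsK K).H2 (AK K)) :
    ∃ (n : ℕ+) (a : invts (AK K)),
      x = (padicDatum K (levelsK K) (goodLevels_levelsK K)).cls n a :=
  pres_of_presCochain K (presCochain K) x

end Field

section Res

variable {K L : LF q} [FiniteDimensional ℚ_[q] K] [FiniteDimensional ℚ_[q] L] (h : K ≤ L)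

/-- (L2) **`inv_L ∘ res = [L : K] • inv_K`**. -/
theorem inv_res (x : (levelsK K).H2 (AK K)) :
    inv L ((isContinuous_inclG h).res₂ (AK K) x) = (ramIdx h * resDeg h) • inv K x :=
  invK_res h (presCochain K) (presCochain L) x

end Res

section Open

variable (D : Subgroup (PadicAlgCl q ≃ₐ[ℚ_[q]] PadicAlgCl q))
  (hD : ∃ W ∈ (pullLevels (localGaloisToGlobal q)).levels, W ≤ D)

/-- **the local invariant of the fixed field of an open subgroup `D ≤ Gal(Ω/ℚ_q)`**, on the
carrier used on the `J_S`-side (`JSH2_64.MainOpen.levelsW / unitsW`). -/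
noncomputable def invOpen :
    ((pullLevels (localGaloisToGlobal q)).comap D.subtype).H2 (Rep.res D.subtype (Om q)) ≃+
      AddCircle (1 : ℚ) :=
  invW D hD (fun K _ => presCochain K)

theorem invOpen_inj
    (x : ((pullLevels (localGaloisToGlobal q)).comap D.subtype).H2 (Rep.res D.subtype (Om q)))
    (h : invOpen D hD x = 0) : x = 0 :=
  invW_inj D hD _ x h

theorem invOpen_surj (t : AddCircle (1 : ℚ)) (m : ℕ) (ht : m • t = 0) :
    ∃ x : ((pullLevels (localGaloisToGlobal q)).comap D.subtype).H2 (Rep.res D.subtype (Om q)),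
      m • x = 0 ∧ invOpen D hD x = t :=
  invW_surj D hD _ t m ht

end Open

section Base

/-- **the local invariant of `ℚ_q`** on `H²(Gal(Ω/ℚ_q); Ωˣ)` (levels pulled back from `G_ℚ`). -/
noncomputable def invQ : (pullLevels (localGaloisToGlobal q)).H2 (Om q) ≃+ AddCircle (1 : ℚ) :=
  invBase (presCochain (⊥ : LF q))

theorem invQ_carry (n : ℕ+) (a : invts (AK (⊥ : LF q)))
    (hmem : carry (Om q) (chiBase (q := q) n) (a : AK (⊥ : LF q)) ∈
      (pullLevels (localGaloisToGlobal q)).Z₂ (Om q)) :
    invQ ((pullLevels (localGaloisToGlobal q)).H2π (Om q) ⟨_, hmem⟩) =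
      frac (vK (⊥ : LF q) a) n :=
  invBase_carry (presCochain (⊥ : LF q)) n a hmem

/-- `hne`: for `1 < m` there is an `m`-torsion class of `Br(ℚ_q)` of non-zero invariant. -/
theorem exists_torsion_invQ_ne (m : ℕ) (hm : 1 < m) :
    ∃ z : (pullLevels (localGaloisToGlobal q)).H2 (Om q), m • z = 0 ∧ invQ z ≠ 0 :=
  exists_torsion_ne invQ m hm

end Base

/-- helper95's `LocalPres`, unconditionally. -/
theorem localPres (q : Nat.Primes) : KummerBr95.LocalPres q := by
  haveI : Fact (q : ℕ).Prime := ⟨q.2⟩
  intro K _ x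
  exact pres K x

end Fermat.Agent.S55.LocInv28.Final
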