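/-
S55 / 22-LOC-INV, part 22b (helper28): evaluation of the open-subgroup invariants
`OpenSub.invSub / invW` (and `Final.invOpen`) through ANY finite `K/ℚ_q` with
`K.fixingSubgroup = D`: the class of the cocycle `c ∘ (D ≃ G_K)` has invariant `invK K [c]`.
(The field used inside `invSub` is a `Classical.choose`; these lemmas hide it.)
-/
import Mathlib
import Fermat.Agent.S55.LocInv28.OpenSub

set_option autoImplicit false
set_option linter.unusedSectionVars false
set_option linter.style.haveILetI false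

open CategoryTheory groupCohomology IntermediateField

namespace Fermat.Agent.S55.LocInv28.OpenField

open Fermat.Agent.S55.Profin15 Fermat.Agent.S55.GlobalInv91 Fermat.Agent.S55.UnrExt93
  Fermat.Agent.S55.LocField17 Fermat.Agent.S55.LocInv28.Abstract
  Fermat.Agent.S55.LocInv28.FrobChar Fermat.Agent.S55.LocInv28.Padic
  Fermat.Agent.S55.LocInv28.Main Fermat.Agent.S55.KummerBr95 Fermat.Agent.S55.LocInv28.OpenSub

variable {q : ℕ} [Fact q.Prime]

/-- a finite extension of `ℚ_q` inside `Ω` is determined by its fixing subgroup. -/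
theorem eq_of_fixingSubgroup_eq {K K' : LF q} (h : K.fixingSubgroup = K'.fixingSubgroup) :
    K = K' := by
  rw [← InfiniteGalois.fixedField_fixingSubgroup K, h,
    InfiniteGalois.fixedField_fixingSubgroup K']

section Gen

variable {Γ : Type} [Group Γ] (ι : Γ →* (PadicAlgCl q ≃ₐ[ℚ_[q]] PadicAlgCl q))
  (hι : Function.Injective ι) (𝒱 : LevelStr Γ)
  (h𝒱 : LevelEquiv 𝒱 ((galLevels ℚ_[q] (PadicAlgCl q)).comap ι))

/-- `invGen` does not depend on the way the field is presented. -/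
theorem invGen_congr {K K' : LF q} [FiniteDimensional ℚ_[q] K] [FiniteDimensional ℚ_[q] K']
    (hK : ι.range = K.fixingSubgroup) (hK' : ι.range = K'.fixingSubgroup)
    (hP : PresCochain K) (hP' : PresCochain K') (x : 𝒱.H2 (Rep.res ι (Om q))) :
    invGen ι hι K hK 𝒱 h𝒱 hP x = invGen ι hι K' hK' 𝒱 h𝒱 hP' x := by
  have hKK' : K = K' := eq_of_fixingSubgroup_eq (hK.symm.trans hK')
  subst hKK'
  rfl

/-- `invGen` on the class of `c ∘ toGK`, `c` a level cocycle of `G_K`. -/
theorem invGen_H2π (K : LF q) [FiniteDimensional ℚ_[q] K] (hK : ι.range = K.fixingSubgroup)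
    (hP : PresCochain K) (c : ↥((levelsK K).Z₂ (AK K)))
    (hmem : (fun p : Γ × Γ => (c : GK K × GK K → AK K)
      (toGK ι hι K hK p.1, toGK ι hι K hK p.2)) ∈ 𝒱.Z₂ (Rep.res ι (Om q))) :
    invGen ι hι K hK 𝒱 h𝒱 hP (𝒱.H2π (Rep.res ι (Om q)) ⟨_, hmem⟩) =
      invK K hP ((levelsK K).H2π (AK K) c) := by
  show invK K hP ((h2Equiv ι hι K hK 𝒱 h𝒱) _) = _
  rw [h2Equiv_H2π]

end Gen

section Sub

variable (D : Subgroup (PadicAlgCl q ≃ₐ[ℚ_[q]] PadicAlgCl q))
  (K : LF q) [FiniteDimensional ℚ_[q] K] (hKD : K.fixingSubgroup = D)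

/-- `D ≃* G_K` when `D = K.fixingSubgroup` (identity on the underlying automorphisms). -/
noncomputable def subEquiv : ↥D ≃* GK K := MulEquiv.subgroupCongr hKD.symm

lemma coe_subEquiv (g : ↥D) :
    ((subEquiv D K hKD g : GK K) : PadicAlgCl q ≃ₐ[ℚ_[q]] PadicAlgCl q) = g := rfl

variable (hD : ∃ W ∈ (galLevels ℚ_[q] (PadicAlgCl q)).levels, W ≤ D)

include hKD in
theorem fieldOf_eq : fieldOf D hD = K :=
  eq_of_fixingSubgroup_eq ((fixingSubgroup_fieldOf D hD).trans hKD.symm)

variable (hP : ∀ (K : LF q) [FiniteDimensional ℚ_[q] K], PresCochain K)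
  (𝒱 : LevelStr ↥D) (h𝒱 : LevelEquiv 𝒱 ((galLevels ℚ_[q] (PadicAlgCl q)).comap D.subtype))

/-- **`invSub` through any presentation `D = G_K`**: the class of `c ∘ (D ≃ G_K)` has invariant
`inv_K [c]`. -/
theorem invSub_H2π (c : ↥((levelsK K).Z₂ (AK K)))
    (hmem : (fun p : ↥D × ↥D => (c : GK K × GK K → AK K)
      (subEquiv D K hKD p.1, subEquiv D K hKD p.2)) ∈ 𝒱.Z₂ (Rep.res D.subtype (Om q))) :
    invSub D hD hP 𝒱 h𝒱 (𝒱.H2π (Rep.res D.subtype (Om q)) ⟨_, hmem⟩) =
      invK K (hP K) ((levelsK K).H2π (AK K) c) := by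
  have hK : D.subtype.range = K.fixingSubgroup := by rw [hKD, Subgroup.range_subtype]
  have h1 : invSub D hD hP 𝒱 h𝒱 (𝒱.H2π (Rep.res D.subtype (Om q)) ⟨_, hmem⟩) =
      invGen D.subtype D.subtype_injective K hK 𝒱 h𝒱 (hP K)
        (𝒱.H2π (Rep.res D.subtype (Om q)) ⟨_, hmem⟩) :=
    invGen_congr D.subtype D.subtype_injective 𝒱 h𝒱 (range_subtype_eq D hD) hK _ _ _
  rw [h1]
  exact invGen_H2π D.subtype D.subtype_injective 𝒱 h𝒱 K hK (hP K) c hmem

end Sub

section PullLevels

variable (D : Subgroup (PadicAlgCl q ≃ₐ[ℚ_[q]] PadicAlgCl q))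
  (K : LF q) [FiniteDimensional ℚ_[q] K] (hKD : K.fixingSubgroup = D)
  (hD : ∃ W ∈ (pullLevels (localGaloisToGlobal q)).levels, W ≤ D)
  (hP : ∀ (K : LF q) [FiniteDimensional ℚ_[q] K], PresCochain K)

/-- **`invW` through any presentation `D = G_K`** (the carrier of the `J_S`-side). -/
theorem invW_H2π (c : ↥((levelsK K).Z₂ (AK K)))
    (hmem : (fun p : ↥D × ↥D => (c : GK K × GK K → AK K)
      (subEquiv D K hKD p.1, subEquiv D K hKD p.2)) ∈
      ((pullLevels (localGaloisToGlobal q)).comap D.subtype).Z₂ (Rep.res D.subtype (Om q))) :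
    invW D hD hP (((pullLevels (localGaloisToGlobal q)).comap D.subtype).H2π
        (Rep.res D.subtype (Om q)) ⟨_, hmem⟩) =
      invK K (hP K) ((levelsK K).H2π (AK K) c) :=
  invSub_H2π D K hKD _ hP _ _ c hmem

/-- the same, starting from a level cocycle `z` of `D`: its transport to `G_K` is a level
cocycle and computes `invW`. -/
theorem exists_invW_eq
    (z : ↥(((pullLevels (localGaloisToGlobal q)).comap D.subtype).Z₂
      (Rep.res D.subtype (Om q)))) :
    ∃ c : ↥((levelsK K).Z₂ (AK K)),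
      (∀ g h : GK K, (c : GK K × GK K → AK K) (g, h) =
        (z : ↥D × ↥D → Rep.res D.subtype (Om q))
          ((subEquiv D K hKD).symm g, (subEquiv D K hKD).symm h)) ∧
      invW D hD hP (((pullLevels (localGaloisToGlobal q)).comap D.subtype).H2π
        (Rep.res D.subtype (Om q)) z) = invK K (hP K) ((levelsK K).H2π (AK K) c) := by
  subst hKD
  have hle : LevelEquiv ((pullLevels (localGaloisToGlobal q)).comap K.fixingSubgroup.subtype)
      (levelsK K) := (pullLevels_equiv_gal (q := q)).comap K.fixingSubgroup.subtype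
  have hz : (z : GK K × GK K → AK K) ∈ (levelsK K).Z₂ (AK K) :=
    (hle.Z₂_eq (AK K)) ▸ z.2
  refine ⟨⟨(z : GK K × GK K → AK K), hz⟩, fun g h => rfl, ?_⟩
  exact invW_H2π K.fixingSubgroup K rfl hD hP ⟨(z : GK K × GK K → AK K), hz⟩ z.2

end PullLevels

end Fermat.Agent.S55.LocInv28.OpenField
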