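/-
S55 / 22-LOC-INV, part 22b (helper28): evaluation of the unconditional open-subgroup invariant
`Final.invOpen D hD` through any finite `K/ℚ_q` with `K.fixingSubgroup = D`.
-/
import Mathlib
import Fermat.Agent.S55.LocInv28.Final
import Fermat.Agent.S55.LocInv28.OpenField

set_option autoImplicit false
set_option linter.unusedSectionVars false
set_option linter.style.haveILetI false

open CategoryTheory groupCohomology IntermediateField

namespace Fermat.Agent.S55.LocInv28.FinalField

open Fermat.Agent.S55.Profin15 Fermat.Agent.S55.GlobalInv91 Fermat.Agent.S55.UnrExt93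
  Fermat.Agent.S55.LocField17 Fermat.Agent.S55.LocInv28.Abstract
  Fermat.Agent.S55.LocInv28.FrobChar Fermat.Agent.S55.LocInv28.Padic
  Fermat.Agent.S55.LocInv28.Main Fermat.Agent.S55.KummerBr95 Fermat.Agent.S55.LocInv28.OpenSub
  Fermat.Agent.S55.LocInv28.OpenField Fermat.Agent.S55.LocInv28.Final

variable {q : ℕ} [Fact q.Prime]
  (D : Subgroup (PadicAlgCl q ≃ₐ[ℚ_[q]] PadicAlgCl q))
  (K : LF q) [FiniteDimensional ℚ_[q] K] (hKD : K.fixingSubgroup = D)
  (hD : ∃ W ∈ (pullLevels (localGaloisToGlobal q)).levels, W ≤ D)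

/-- **`invOpen` through any presentation `D = G_K`**: the class of `c ∘ (D ≃ G_K)` has invariant
`inv_K [c]`. -/
theorem invOpen_H2π (c : ↥((levelsK K).Z₂ (AK K)))
    (hmem : (fun p : ↥D × ↥D => (c : GK K × GK K → AK K)
      (subEquiv D K hKD p.1, subEquiv D K hKD p.2)) ∈
      ((pullLevels (localGaloisToGlobal q)).comap D.subtype).Z₂ (Rep.res D.subtype (Om q))) :
    invOpen D hD (((pullLevels (localGaloisToGlobal q)).comap D.subtype).H2π
        (Rep.res D.subtype (Om q)) ⟨_, hmem⟩) =
      Final.inv K ((levelsK K).H2π (AK K) c) :=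
  invW_H2π D K hKD hD (fun K _ => presCochain K) c hmem

/-- the same, starting from a level cocycle `z` of `D`. -/
theorem exists_invOpen_eq
    (z : ↥(((pullLevels (localGaloisToGlobal q)).comap D.subtype).Z₂
      (Rep.res D.subtype (Om q)))) :
    ∃ c : ↥((levelsK K).Z₂ (AK K)),
      (∀ g h : GK K, (c : GK K × GK K → AK K) (g, h) =
        (z : ↥D × ↥D → Rep.res D.subtype (Om q))
          ((subEquiv D K hKD).symm g, (subEquiv D K hKD).symm h)) ∧
      invOpen D hD (((pullLevels (localGaloisToGlobal q)).comap D.subtype).H2π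
        (Rep.res D.subtype (Om q)) z) = Final.inv K ((levelsK K).H2π (AK K) c) :=
  exists_invW_eq D K hKD hD (fun K _ => presCochain K) z

end Fermat.Agent.S55.LocInv28.FinalField
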