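/-
S55 / 22-LOC-INV, part 22b (helper28): **(LOC)** — the purely local link between the limit-level
invariant of a decomposition group and helper93's finite-level local system:
for an open `D ≤ Gal(Ω/ℚ_q)` which is the preimage of `D' ≤ Gal(E/ℚ_q)` (`E = Elev q L` the
completion of a finite Galois level `L/ℚ`), and a `2`-cocycle `g` of `D'` with values in `Eˣ`,
`invW D [t ↦ g (res t.1, res t.2)] = (locSys q L).S D' g`.
(= the hypothesis `hLOC` of helper64's `JSH2_64.CoindCompat.sum_locw_eq_coindS`.)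
-/
import Mathlib
import Fermat.Agent.S55.LocInv28.OpenField
import Fermat.Agent.S55.LocInv28.FinalField
import Fermat.Agent.S55.P2Local71.PresFinal

set_option autoImplicit false
set_option linter.unusedSectionVars false

open CategoryTheory groupCohomology IntermediateField

namespace Fermat.Agent.S55.LocInv28.LocCompat

open Fermat.Agent.S55.Profin15 Fermat.Agent.S55.GlobalInv91
  Fermat.Agent.S55.LocField17 Fermat.Agent.S55.LocInv28.Abstract
  Fermat.Agent.S55.LocInv28.FrobChar Fermat.Agent.S55.LocInv28.Padic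
  Fermat.Agent.S55.LocInv28.Main Fermat.Agent.S55.KummerBr95 Fermat.Agent.S55.LocInv28.OpenSub
  Fermat.Agent.S55.LocInv28.OpenField Fermat.Agent.S55.Idele73.Basic Fermat.Agent.S55.Idele73.Local
  Fermat.Agent.S55.CycloRecip37.GSys

attribute [local instance] Fermat.Agent.S55.KummerBr95.fact_prime

variable (q : Nat.Primes) (L : IntermediateField ℚ Qbar) [Normal ℚ L] [FiniteDimensional ℚ L]
  (D : Subgroup (PadicAlgCl (q : ℕ) ≃ₐ[ℚ_[(q : ℕ)]] PadicAlgCl (q : ℕ)))
  (hD : ∃ W ∈ (pullLevels (localGaloisToGlobal (q : ℕ))).levels, W ≤ D)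
  (D' : Subgroup (DE (q : ℕ) L)) (hDD' : ∀ τ, τ ∈ D ↔ resE (q : ℕ) L τ ∈ D')

include hDD'

/-- the decomposition group `D = res⁻¹ D'` is the fixing subgroup of `E^{D'}`. -/
theorem fixingSubgroup_fixK_eq :
    (UnrExt93.fixK (Elev (q : ℕ) L) D').fixingSubgroup = D := by
  ext τ
  rw [UnrExt93.mem_fixingSubgroup_fixK_iff, hDD']
  rfl

/-- **(LOC)**, general form (any proofs `h`, `hP`). -/
theorem invW_infl_eq_locSys (h : KummerBr95.LocalPres q)
    (hP : ∀ (K : LF (q : ℕ)) [FiniteDimensional ℚ_[(q : ℕ)] K], PresCochain K)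
    (g : DE (q : ℕ) L × DE (q : ℕ) L → EUnits (q : ℕ) L) (hg : IsCocOn (EUnits (q : ℕ) L) D' g)
    (hz : (fun t : ↥D × ↥D => eLin (q : ℕ) L (g (resE (q : ℕ) L t.1, resE (q : ℕ) L t.2))) ∈
      ((pullLevels (localGaloisToGlobal (q : ℕ))).comap D.subtype).Z₂
        (Rep.res D.subtype (localUnits (q : ℕ)))) :
    invW D hD hP (((pullLevels (localGaloisToGlobal (q : ℕ))).comap D.subtype).H2π
      (Rep.res D.subtype (localUnits (q : ℕ))) ⟨_, hz⟩) = (UnrExt93.locSys q L h).S D' g := by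
  have hKD := fixingSubgroup_fixK_eq q L D D' hDD'
  rw [UnrExt93.locSys_S_of_isCocOn q L h hg]
  exact invW_H2π D (UnrExt93.fixK (Elev (q : ℕ) L) D') hKD hD hP
    ⟨UnrExt93.infl₂ (Elev (q : ℕ) L) (UnrExt93.fixK (Elev (q : ℕ) L) D') g,
      UnrExt93.infl₂_mem_Z₂ (goodLevels_levelsK _) (UnrExt93.resE_mem D') hg⟩ hz

/-- **(LOC71)**: helper64's statement verbatim (`invW … presCochain_all`, `locSys71`). -/
theorem invW_infl_eq_locSys71
    (g : DE (q : ℕ) L × DE (q : ℕ) L → EUnits (q : ℕ) L) (hg : IsCocOn (EUnits (q : ℕ) L) D' g)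
    (hz : (fun t : ↥D × ↥D => eLin (q : ℕ) L (g (resE (q : ℕ) L t.1, resE (q : ℕ) L t.2))) ∈
      ((pullLevels (localGaloisToGlobal (q : ℕ))).comap D.subtype).Z₂
        (Rep.res D.subtype (localUnits (q : ℕ)))) :
    invW D hD P2Local71.presCochain_all
      (((pullLevels (localGaloisToGlobal (q : ℕ))).comap D.subtype).H2π
        (Rep.res D.subtype (localUnits (q : ℕ))) ⟨_, hz⟩) = (P2Local71.locSys71 q L).S D' g :=
  invW_infl_eq_locSys q L D hD D' hDD' (P2Local71.localPres q) P2Local71.presCochain_all g hg hz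

/-- the same for `P2Local71.invW71` and for `LocInv28.Final.invOpen`. -/
theorem invW71_infl_eq_locSys71
    (g : DE (q : ℕ) L × DE (q : ℕ) L → EUnits (q : ℕ) L) (hg : IsCocOn (EUnits (q : ℕ) L) D' g)
    (hz : (fun t : ↥D × ↥D => eLin (q : ℕ) L (g (resE (q : ℕ) L t.1, resE (q : ℕ) L t.2))) ∈
      ((pullLevels (localGaloisToGlobal (q : ℕ))).comap D.subtype).Z₂
        (Rep.res D.subtype (localUnits (q : ℕ)))) :
    P2Local71.invW71 D hD
      (((pullLevels (localGaloisToGlobal (q : ℕ))).comap D.subtype).H2π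
        (Rep.res D.subtype (localUnits (q : ℕ))) ⟨_, hz⟩) = (P2Local71.locSys71 q L).S D' g :=
  invW_infl_eq_locSys71 q L D hD D' hDD' g hg hz

theorem invOpen_infl_eq_locSys (h : KummerBr95.LocalPres q)
    (g : DE (q : ℕ) L × DE (q : ℕ) L → EUnits (q : ℕ) L) (hg : IsCocOn (EUnits (q : ℕ) L) D' g)
    (hz : (fun t : ↥D × ↥D => eLin (q : ℕ) L (g (resE (q : ℕ) L t.1, resE (q : ℕ) L t.2))) ∈
      ((pullLevels (localGaloisToGlobal (q : ℕ))).comap D.subtype).Z₂
        (Rep.res D.subtype (localUnits (q : ℕ)))) :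
    LocInv28.Final.invOpen D hD
      (((pullLevels (localGaloisToGlobal (q : ℕ))).comap D.subtype).H2π
        (Rep.res D.subtype (localUnits (q : ℕ))) ⟨_, hz⟩) = (UnrExt93.locSys q L h).S D' g :=
  invW_infl_eq_locSys q L D hD D' hDD' h (fun K _ => LocInv28.Final.presCochain K) g hg hz

end Fermat.Agent.S55.LocInv28.LocCompat
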